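import Mathlib
import Fermat.Prelude.Def_ModularCurve_PeriodHomPair
import Fermat.Agent.S22ES.Growth

/-!
# S21, module (P): equivariant primitives of weight-2 cusp forms on `Γ₀(N)`

Existence and uniqueness of `F` with `ModularCurve.HasEquivariantPrimitive N f F`; consequences for
`ModularCurve.periodMap` (explicit formula, linearity).
-/

set_option autoImplicit false

namespace Fermat.Agent.S21

open UpperHalfPlane CongruenceSubgroup ModularCurve ModularCurve.Period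
open scoped MatrixGroups ModularForm Manifold Topology

namespace Primitive

open Fermat.Agent.S22ES Filter Set

local notation "I∞" => Filter.comap Complex.im Filter.atTop

/-! ### Primitives of periodic functions decaying at `i∞` -/

theorem eventually_im_pos : ∀ᶠ z : ℂ in I∞, (0 : ℝ) < z.im :=
  eventually_of_mem (preimage_mem_comap (Ioi_mem_atTop 0)) (fun _ hz => hz)

theorem exists_bound_of_tendsto_zero {g : ℂ → ℂ} (hzero : Tendsto g I∞ (𝓝 0)) {ε : ℝ}
    (hε : 0 < ε) : ∃ Y : ℝ, 0 < Y ∧ ∀ z : ℂ, Y ≤ z.im → ‖g z‖ ≤ ε := by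
  have h1 : ∀ᶠ z in I∞, ‖g z‖ < ε := by
    have := Metric.tendsto_nhds.mp hzero ε hε
    simpa [dist_zero_right] using this
  rw [Filter.eventually_comap, Filter.eventually_atTop] at h1
  obtain ⟨Y, hY⟩ := h1
  refine ⟨max Y 1, lt_of_lt_of_le one_pos (le_max_right _ _), fun z hz => ?_⟩
  exact (hY z.im ((le_max_left _ _).trans hz) z rfl).le

/-- A primitive of an `h`-periodic function tending to `0` at `i∞` is `h`-periodic. -/
theorem primitive_periodic {g G : ℂ → ℂ} {h : ℝ}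
    (hper : ∀ z ∈ UH, g (z + h) = g z) (hzero : Tendsto g I∞ (𝓝 0))
    (hG : ∀ z ∈ UH, HasDerivAt G (g z) z) : ∀ z ∈ UH, G (z + h) = G z := by
  have hmem : ∀ z ∈ UH, z + (h : ℂ) ∈ UH := fun z hz => by
    show 0 < (z + (h : ℂ)).im
    have hz' : 0 < z.im := hz
    simpa using hz'
  set D : ℂ → ℂ := fun z => G (z + h) - G z with hD
  have hDd : ∀ z ∈ UH, HasDerivAt D 0 z := by
    intro z hz
    have h1 : HasDerivAt (fun w : ℂ => G (w + h)) (g (z + h)) z := by
      have h0 := (hG (z + h) (hmem z hz)).comp z ((hasDerivAt_id z).add_const (h : ℂ))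
      rw [mul_one] at h0
      exact h0
    have h2 := h1.sub (hG z hz)
    rwa [hper z hz, sub_self] at h2
  have hconst : ∀ {x y : ℂ}, x ∈ UH → y ∈ UH → D x = D y :=
    isOpen_UH.is_const_of_deriv_eq_zero isPreconnected_UH
      (fun z hz => (hDd z hz).differentiableAt.differentiableWithinAt)
      (fun z hz => (hDd z hz).deriv)
  -- the constant is small
  have hsmall : ∀ ε : ℝ, 0 < ε → ∀ z ∈ UH, ‖D z‖ ≤ ε * ‖(h : ℂ)‖ := by
    intro ε hε z hz
    obtain ⟨Y, hYpos, hY⟩ := exists_bound_of_tendsto_zero hzero hε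
    set z0 : ℂ := (Y : ℂ) * Complex.I with hz0
    have hz0im : z0.im = Y := by simp [hz0]
    have hz0U : z0 ∈ UH := by show 0 < z0.im; rw [hz0im]; exact hYpos
    rw [hconst hz hz0U]
    have hs : Convex ℝ {c : ℂ | Y ≤ c.im} := convex_halfSpace_im_ge Y
    have hsub : ∀ x ∈ {c : ℂ | Y ≤ c.im}, x ∈ UH := fun x hx => lt_of_lt_of_le hYpos hx
    have := hs.norm_image_sub_le_of_norm_hasDerivWithin_le (f := G) (f' := g)
      (x := z0) (y := z0 + h) (C := ε)
      (fun x hx => (hG x (hsub x hx)).hasDerivWithinAt) (fun x hx => hY x hx)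
      (by show Y ≤ z0.im; rw [hz0im]) (by show Y ≤ (z0 + (h : ℂ)).im; simp [hz0im])
    simpa [hD] using this
  intro z hz
  have h0 : ‖D z‖ ≤ 0 := by
    refine le_of_forall_pos_le_add fun ε hε => ?_
    have hpos : 0 < ‖(h : ℂ)‖ + 1 := by positivity
    have := hsmall (ε / (‖(h : ℂ)‖ + 1)) (div_pos hε hpos) z hz
    have h2 : ε / (‖(h : ℂ)‖ + 1) * ‖(h : ℂ)‖ ≤ ε := by
      rw [div_mul_eq_mul_div, div_le_iff₀ hpos]
      nlinarith [norm_nonneg (h : ℂ)]
    linarith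
  have h1 : D z = 0 := norm_le_zero_iff.mp h0
  exact sub_eq_zero.mp h1

/-- A primitive of an `h`-periodic function tending to `0` at `i∞` has a limit at `i∞`. -/
theorem primitive_tendsto {g G : ℂ → ℂ} {h : ℝ} (hh : 0 < h)
    (hper : ∀ z ∈ UH, g (z + h) = g z) (hzero : Tendsto g I∞ (𝓝 0))
    (hG : ∀ z ∈ UH, HasDerivAt G (g z) z) : ∃ L : ℂ, Tendsto G I∞ (𝓝 L) := by
  have hGper := primitive_periodic hper hzero hG
  have hGd : DifferentiableOn ℂ G UH := fun z hz =>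
    (hG z hz).differentiableAt.differentiableWithinAt
  have hbd : BddAtTop (deriv G) := by
    obtain ⟨Y, hYpos, hY⟩ := exists_bound_of_tendsto_zero hzero one_pos
    refine ⟨1, Y, fun z hz => ?_⟩
    rw [(hG z (lt_of_lt_of_le hYpos hz)).deriv]
    exact hY z hz
  obtain ⟨B, Y, hBY⟩ := bddAtTop_of_deriv hh hGd hGper hbd
  set G' : ℂ → ℂ := fun z => if 0 < z.im then G z else 0 with hG'
  have hG'eq : ∀ z : ℂ, 0 < z.im → G' z = G z := fun z hz => by simp [hG', hz]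
  have hper' : Function.Periodic G' h := by
    intro z
    have him : (z + (h : ℂ)).im = z.im := by simp
    by_cases hz : 0 < z.im
    · have hz' : 0 < (z + (h : ℂ)).im := by rw [him]; exact hz
      rw [hG'eq _ hz', hG'eq _ hz]
      exact hGper z hz
    · have hz' : ¬ 0 < (z + (h : ℂ)).im := by rw [him]; exact hz
      simp [hG', hz]
  have hev : G' =ᶠ[I∞] G := by
    filter_upwards [eventually_im_pos] with z hz using hG'eq z hz
  have hol : ∀ᶠ z in I∞, DifferentiableAt ℂ G' z := by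
    filter_upwards [eventually_im_pos] with z hz
    have h1 : G' =ᶠ[𝓝 z] G :=
      Filter.eventuallyEq_of_mem (isOpen_UH.mem_nhds hz) (fun w hw => hG'eq w hw)
    exact ((hG z hz).congr_of_eventuallyEq h1).differentiableAt
  have hgrow : ∃ C B' : ℝ, ∀ᶠ z in I∞, ‖G' z‖ ≤ C + B' * z.im := by
    refine ⟨B, 0, ?_⟩
    have h1 : ∀ᶠ z : ℂ in I∞, Y ≤ z.im :=
      eventually_of_mem (preimage_mem_comap (Ici_mem_atTop Y)) (fun _ hz => hz)
    filter_upwards [eventually_im_pos, h1] with z hz hzY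
    rw [hG'eq z hz, zero_mul, add_zero]
    exact hBY z hzY
  obtain ⟨L, hL⟩ := tendsto_of_linear_growth hh hper' hol hgrow
  exact ⟨L, hL.congr' hev⟩

/-! ### Bridging lemmas between `ℍ` and `ℂ` -/

theorem UH_eq : UH = {z : ℂ | 0 < z.im} := rfl

/-- chain rule for `SL(2,ℤ)`-translates -/
theorem hasDerivAt_comp_smul {Φ φ : ℍ → ℂ}
    (hΦ : ∀ τ : ℍ, HasDerivAt (Φ ∘ ofComplex) (φ τ) τ) (g : SL(2, ℤ)) (τ : ℍ) :
    HasDerivAt ((fun w : ℍ => Φ (g • w)) ∘ ofComplex) ((φ ∣[(2 : ℤ)] g) τ) τ := by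
  have hdet : ((g : GL (Fin 2) ℝ)).val.det = 1 := by
    rw [← Matrix.GeneralLinearGroup.val_det_apply]; simp
  have hg : 0 < ((g : GL (Fin 2) ℝ)).val.det := by rw [hdet]; exact one_pos
  have h_smul := (hasStrictDerivAt_smul hg τ).hasDerivAt
  have h_F : HasDerivAt (Φ ∘ ofComplex) (φ (g • τ))
      ((fun z : ℂ => (((g : GL (Fin 2) ℝ) • ofComplex z : ℍ) : ℂ)) (τ : ℂ)) := by
    show HasDerivAt (Φ ∘ ofComplex) (φ (g • τ))
      (((g : GL (Fin 2) ℝ) • ofComplex (τ : ℂ) : ℍ) : ℂ)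
    rw [ofComplex_apply]
    exact hΦ (g • τ)
  have hcomp := h_F.comp (τ : ℂ) h_smul
  have hfun : (Φ ∘ ofComplex) ∘ (fun z : ℂ => (((g : GL (Fin 2) ℝ) • ofComplex z : ℍ) : ℂ)) =
      (fun w : ℍ => Φ (g • w)) ∘ ofComplex := by
    funext z
    simp only [Function.comp_apply, ofComplex_apply]
    rfl
  have hval : φ (g • τ) * ((((g : GL (Fin 2) ℝ)).val.det : ℂ) /
      denom (g : GL (Fin 2) ℝ) τ ^ 2) = (φ ∣[(2 : ℤ)] g) τ := by
    rw [ModularForm.SL_slash_apply, hdet, zpow_neg, show ((2 : ℤ)) = ((2 : ℕ) : ℤ) from rfl,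
      zpow_natCast, Complex.ofReal_one, one_div]
  rw [hfun, hval] at hcomp
  exact hcomp

/-- a function on `ℍ` with zero derivative is constant -/
theorem const_of_hasDerivAt_zero {Φ : ℍ → ℂ}
    (hΦ : ∀ τ : ℍ, HasDerivAt (Φ ∘ ofComplex) 0 τ) : ∀ z w : ℍ, Φ z = Φ w := by
  have hconst : ∀ {x y : ℂ}, x ∈ UH → y ∈ UH → (Φ ∘ ofComplex) x = (Φ ∘ ofComplex) y :=
    isOpen_UH.is_const_of_deriv_eq_zero isPreconnected_UH
      (fun z hz => (hΦ ⟨z, hz⟩).differentiableAt.differentiableWithinAt)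
      (fun z hz => (hΦ ⟨z, hz⟩).deriv)
  intro z w
  have := hconst (x := (z : ℂ)) (y := (w : ℂ)) z.2 w.2
  simpa only [Function.comp_apply, ofComplex_apply] using this

/-- passing a limit from `ℂ` to `ℍ` -/
theorem tendsto_of_comp_ofComplex {Φ : ℍ → ℂ} {L : ℂ}
    (h : Tendsto (Φ ∘ ofComplex) I∞ (𝓝 L)) : Tendsto Φ atImInfty (𝓝 L) := by
  have h1 := h.comp tendsto_coe_atImInfty
  have h2 : (Φ ∘ ofComplex) ∘ UpperHalfPlane.coe = Φ := by
    funext τ
    simp only [Function.comp_apply, ofComplex_apply]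
  rwa [h2] at h1

/-! ### Cusp forms of weight 2 on `Γ₀(N)` -/

theorem conj_T_zpow_mem_Gamma0 (N : ℕ) (δ : SL(2, ℤ)) :
    δ * ModularGroup.T ^ (N : ℤ) * δ⁻¹ ∈ Gamma0 N := by
  have h1 : ModularGroup.T ^ (N : ℤ) ∈ Gamma N := by
    simpa using ModularGroup_T_pow_mem_Gamma (N : ℤ) (N : ℤ) dvd_rfl
  have h2 : δ * ModularGroup.T ^ (N : ℤ) * δ⁻¹ ∈ Gamma N := (Gamma_normal N).conj_mem _ h1 δ
  rw [Gamma_mem] at h2
  rw [Gamma0_mem]
  exact h2.2.2.1

theorem slash_eq_of_mem {N : ℕ} (f : CuspForm (Gamma0 N) 2) {γ : SL(2, ℤ)} (hγ : γ ∈ Gamma0 N) :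
    (f : ℍ → ℂ) ∣[(2 : ℤ)] γ = f :=
  f.slash_action_eq' _ ⟨γ, hγ, rfl⟩

theorem slash_vadd {N : ℕ} (f : CuspForm (Gamma0 N) 2) (δ : SL(2, ℤ)) (τ : ℍ) :
    ((f : ℍ → ℂ) ∣[(2 : ℤ)] δ) (((N : ℤ) : ℝ) +ᵥ τ) = ((f : ℍ → ℂ) ∣[(2 : ℤ)] δ) τ := by
  have h1 : ((f : ℍ → ℂ) ∣[(2 : ℤ)] δ) ∣[(2 : ℤ)] (ModularGroup.T ^ (N : ℤ)) =
      (f : ℍ → ℂ) ∣[(2 : ℤ)] δ := by
    rw [← SlashAction.slash_mul]
    have h2 : δ * ModularGroup.T ^ (N : ℤ) = (δ * ModularGroup.T ^ (N : ℤ) * δ⁻¹) * δ := by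
      group
    rw [h2, SlashAction.slash_mul, slash_eq_of_mem f (conj_T_zpow_mem_Gamma0 N δ)]
  have h3 := congrFun h1 τ
  rw [ModularForm.SL_slash_apply, modular_T_zpow_smul] at h3
  have hden : denom (Matrix.SpecialLinearGroup.toGL ((Matrix.SpecialLinearGroup.map
      (Int.castRingHom ℝ)) (ModularGroup.T ^ (N : ℤ)))) (τ : ℂ) = 1 := by
    rw [ModularGroup.denom_apply, ModularGroup.coe_T_zpow]
    simp
  rw [hden, one_zpow, mul_one] at h3
  exact h3

/-- translates of primitives have limits at `i∞` -/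
theorem tendsto_translate {N : ℕ} [NeZero N] (f : CuspForm (Gamma0 N) 2) (δ : SL(2, ℤ))
    {Φ : ℍ → ℂ} (hΦ : ∀ τ : ℍ, HasDerivAt (Φ ∘ ofComplex) (((f : ℍ → ℂ) ∣[(2 : ℤ)] δ) τ) τ) :
    ∃ L : ℂ, Tendsto Φ atImInfty (𝓝 L) := by
  set g : ℂ → ℂ := ((f : ℍ → ℂ) ∣[(2 : ℤ)] δ) ∘ ofComplex with hg
  have hG : ∀ z ∈ UH, HasDerivAt (Φ ∘ ofComplex) (g z) z := by
    intro z hz
    have := hΦ ⟨z, hz⟩
    rwa [hg, Function.comp_apply, ofComplex_apply_of_im_pos hz]
  have hNpos : (0 : ℝ) < ((N : ℤ) : ℝ) := by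
    have : 0 < N := Nat.pos_of_ne_zero (NeZero.ne N)
    exact_mod_cast this
  have hper : ∀ z ∈ UH, g (z + (((N : ℤ) : ℝ) : ℂ)) = g z := by
    intro z hz
    have hz' : 0 < (z + (((N : ℤ) : ℝ) : ℂ)).im := by
      have hz0 : 0 < z.im := hz
      simpa using hz0
    have h1 : ofComplex (z + (((N : ℤ) : ℝ) : ℂ)) = ((N : ℤ) : ℝ) +ᵥ ofComplex z := by
      apply UpperHalfPlane.ext
      rw [ofComplex_apply_of_im_pos hz', coe_vadd, ofComplex_apply_of_im_pos hz]
      simp [add_comm]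
    rw [hg, Function.comp_apply, Function.comp_apply, h1, slash_vadd]
  have hzero : Tendsto g I∞ (𝓝 0) :=
    (CuspFormClass.zero_at_infty_slash f δ).comp tendsto_comap_im_ofComplex
  obtain ⟨L, hL⟩ := primitive_tendsto hNpos hper hzero hG
  exact ⟨L, tendsto_of_comp_ofComplex hL⟩

end Primitive

open Primitive Filter in
/-- (P1) existence of the equivariant primitive. -/
theorem exists_hasEquivariantPrimitive (N : ℕ) [NeZero N] (f : CuspForm (Gamma0 N) 2) :
    ∃ F : ℍ → ℂ, HasEquivariantPrimitive N f F := by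
  have hfc : DifferentiableOn ℂ ((f : ℍ → ℂ) ∘ ofComplex) Fermat.Agent.S22ES.UH :=
    mdifferentiable_iff.mp f.holo'
  obtain ⟨G0, hG0⟩ := Fermat.Agent.S22ES.exists_primitive hfc
  -- the primitive as a function on `ℍ`
  set Φ0 : ℍ → ℂ := fun τ => G0 τ with hΦ0
  have hΦ0d : ∀ τ : ℍ, HasDerivAt (Φ0 ∘ ofComplex) (f τ) τ := by
    intro τ
    have h1 : (Φ0 ∘ ofComplex) =ᶠ[𝓝 (τ : ℂ)] G0 :=
      Filter.eventuallyEq_of_mem (Fermat.Agent.S22ES.isOpen_UH.mem_nhds τ.2) (fun w hw => by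
        simp only [hΦ0, Function.comp_apply, ofComplex_apply_of_im_pos hw])
    have h2 := hG0 τ τ.2
    simp only [Function.comp_apply, ofComplex_apply] at h2
    exact h2.congr_of_eventuallyEq h1
  have hΦ0d' : ∀ τ : ℍ, HasDerivAt (Φ0 ∘ ofComplex)
      (((f : ℍ → ℂ) ∣[(2 : ℤ)] (1 : SL(2, ℤ))) τ) τ := by
    intro τ
    rw [SlashAction.slash_one]
    exact hΦ0d τ
  obtain ⟨L, hL⟩ := tendsto_translate f 1 hΦ0d'
  set F : ℍ → ℂ := fun τ => Φ0 τ - L with hF
  have hFd : ∀ τ : ℍ, HasDerivAt (F ∘ ofComplex) (f τ) τ := fun τ =>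
    (hΦ0d τ).sub_const L
  refine ⟨F, hFd, ?_, ?_, ?_⟩
  · have := hL.sub_const L
    rwa [sub_self] at this
  · intro γ
    refine ⟨F ((γ : SL(2, ℤ)) • UpperHalfPlane.I) - F UpperHalfPlane.I, fun z => ?_⟩
    have hD : ∀ τ : ℍ, HasDerivAt ((fun w : ℍ => F ((γ : SL(2, ℤ)) • w) - F w) ∘ ofComplex) 0 τ := by
      intro τ
      have h1 := hasDerivAt_comp_smul hFd (γ : SL(2, ℤ)) τ
      rw [slash_eq_of_mem f γ.2] at h1
      have h2 := h1.sub (hFd τ)
      rwa [sub_self] at h2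
    exact const_of_hasDerivAt_zero hD z UpperHalfPlane.I
  · intro δ
    exact tendsto_translate f δ (hasDerivAt_comp_smul hFd δ)

open Primitive Filter in
/-- (P2) uniqueness of the equivariant primitive. -/
theorem hasEquivariantPrimitive_unique {N : ℕ} {f : CuspForm (Gamma0 N) 2} {F G : ℍ → ℂ}
    (hF : HasEquivariantPrimitive N f F) (hG : HasEquivariantPrimitive N f G) : F = G := by
  have hD : ∀ τ : ℍ, HasDerivAt ((fun w : ℍ => F w - G w) ∘ ofComplex) 0 τ := by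
    intro τ
    have h2 := (hF.1 τ).sub (hG.1 τ)
    rwa [sub_self] at h2
  have hconst := const_of_hasDerivAt_zero hD
  have hlim : Tendsto (fun w : ℍ => F w - G w) atImInfty (𝓝 0) := by
    have := hF.2.1.sub hG.2.1
    rwa [sub_zero] at this
  have hlim' : Tendsto (fun w : ℍ => F w - G w) atImInfty
      (𝓝 (F UpperHalfPlane.I - G UpperHalfPlane.I)) := by
    have h1 : (fun w : ℍ => F w - G w) = fun _ => F UpperHalfPlane.I - G UpperHalfPlane.I := by
      funext w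
      exact hconst w UpperHalfPlane.I
    rw [h1]
    exact tendsto_const_nhds
  have h0 : F UpperHalfPlane.I - G UpperHalfPlane.I = 0 := tendsto_nhds_unique hlim' hlim
  funext w
  have := hconst w UpperHalfPlane.I
  rw [h0] at this
  exact sub_eq_zero.mp this

namespace Primitive

open Filter

theorem hasEquivariantPrimitive_add {N : ℕ} {f g : CuspForm (Gamma0 N) 2} {F G : ℍ → ℂ}
    (hF : HasEquivariantPrimitive N f F) (hG : HasEquivariantPrimitive N g G) :
    HasEquivariantPrimitive N (f + g) (fun w => F w + G w) := by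
  refine ⟨fun τ => (hF.1 τ).add (hG.1 τ), ?_, ?_, ?_⟩
  · have := hF.2.1.add hG.2.1
    rwa [add_zero] at this
  · intro γ
    obtain ⟨c, hc⟩ := hF.2.2.1 γ
    obtain ⟨d, hd⟩ := hG.2.2.1 γ
    refine ⟨c + d, fun z => ?_⟩
    rw [← hc z, ← hd z]
    ring
  · intro δ
    obtain ⟨L, hL⟩ := hF.2.2.2 δ
    obtain ⟨M, hM⟩ := hG.2.2.2 δ
    exact ⟨L + M, hL.add hM⟩

theorem hasEquivariantPrimitive_smul {N : ℕ} {f : CuspForm (Gamma0 N) 2} {F : ℍ → ℂ}
    (c : ℂ) (hF : HasEquivariantPrimitive N f F) :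
    HasEquivariantPrimitive N (c • f) (fun w => c * F w) := by
  refine ⟨fun τ => (hF.1 τ).const_mul c, ?_, ?_, ?_⟩
  · have := hF.2.1.const_mul c
    rwa [mul_zero] at this
  · intro γ
    obtain ⟨d, hd⟩ := hF.2.2.1 γ
    refine ⟨c * d, fun z => ?_⟩
    rw [← hd z]
    ring
  · intro δ
    obtain ⟨L, hL⟩ := hF.2.2.2 δ
    exact ⟨c * L, hL.const_mul c⟩

end Primitive

/-- (P3) explicit formula for the period map. -/
theorem periodMap_apply {N : ℕ} {f : CuspForm (Gamma0 N) 2} {F : ℍ → ℂ}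
    (hF : HasEquivariantPrimitive N f F) (γ : Gamma0 N) (z : ℍ) :
    periodMap N f (Additive.ofMul γ) = F ((γ : SL(2, ℤ)) • z) - F z := by
  obtain ⟨F₀, h₀, hp⟩ := periodMap_def N f hF
  have hFF : F₀ = F := hasEquivariantPrimitive_unique h₀ hF
  subst hFF
  rw [hp, IsEquivariantPrimitive.periodHom_apply]
  exact (h₀.2.2.1.sub_eq_period γ z).symm

open Primitive in
/-- (P4) the period map is linear. -/
theorem existsPeriodMapLinear (N : ℕ) [NeZero N] : ExistsPeriodMapLinear N := by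
  refine ⟨{ toFun := periodMap N, map_add' := ?_, map_smul' := ?_ }, fun f => rfl⟩
  · intro f g
    obtain ⟨F, hF⟩ := exists_hasEquivariantPrimitive N f
    obtain ⟨G, hG⟩ := exists_hasEquivariantPrimitive N g
    refine AddMonoidHom.ext fun γ => ?_
    obtain ⟨γ, rfl⟩ := Additive.ofMul.surjective γ
    rw [AddMonoidHom.add_apply, periodMap_apply (hasEquivariantPrimitive_add hF hG) γ
      UpperHalfPlane.I, periodMap_apply hF γ UpperHalfPlane.I,
      periodMap_apply hG γ UpperHalfPlane.I]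
    ring
  · intro c f
    obtain ⟨F, hF⟩ := exists_hasEquivariantPrimitive N f
    refine AddMonoidHom.ext fun γ => ?_
    obtain ⟨γ, rfl⟩ := Additive.ofMul.surjective γ
    rw [RingHom.id_apply, AddMonoidHom.smul_apply,
      periodMap_apply (hasEquivariantPrimitive_smul c hF) γ UpperHalfPlane.I,
      periodMap_apply hF γ UpperHalfPlane.I, smul_eq_mul]
    ring

/-- (P5) explicit formula for `periodHomPair`. -/
theorem periodHomPair_apply (N : ℕ) [NeZero N] (f g : CuspForm (Gamma0 N) 2) (γ : Gamma0 N) :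
    periodHomPair N (f, g) (Additive.ofMul γ) =
      (periodMap N f (Additive.ofMul γ) + periodMap N f (Additive.ofMul (jConjGamma0 N γ))) +
      (periodMap N g (Additive.ofMul γ) - periodMap N g (Additive.ofMul (jConjGamma0 N γ))) := by
  obtain ⟨pml, hpml, hp⟩ := periodHomPair_def N (existsPeriodMapLinear N)
  rw [hp, LinearMap.coprod_apply]
  simp only [LinearMap.coe_comp, Function.comp_apply, LinearMap.add_apply, LinearMap.sub_apply,
    LinearMap.id_coe, id_eq, AddMonoidHom.add_apply, AddMonoidHom.sub_apply, hpml,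
    charInvolution_apply]
  rfl

end Fermat.Agent.S21
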