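import Mathlib

/-!
# Abstract dimension bound for parabolic homomorphisms (Shapiro cocycles)

`G` a group generated by `S`, `T`; `Γ ≤ G` of finite index; `X = G ⧸ Γ`; `V = X → ℂ`.
-/

set_option autoImplicit false

namespace Fermat.Agent.S21.DimAbs

open Module

section Rep

variable {G : Type*} [Group G] {X : Type*} [MulAction G X]

/-- The permutation representation of `G` on `X → ℂ`: `(rho g v) x = v (g⁻¹ • x)`. -/
noncomputable def rho : G →* Module.End ℂ (X → ℂ) where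
  toFun g := LinearMap.funLeft ℂ ℂ (fun x => g⁻¹ • x)
  map_one' := by
    ext v x
    simp [LinearMap.funLeft]
  map_mul' g h := by
    ext v x
    simp [LinearMap.funLeft, mul_smul]

theorem rho_apply (g : G) (v : X → ℂ) (x : X) : rho g v x = v (g⁻¹ • x) := rfl

theorem rho_eq_one_of_trivial (g : G) (hg : ∀ x : X, g • x = x) :
    (rho g : Module.End ℂ (X → ℂ)) = 1 := by
  ext v x
  have : g⁻¹ • x = x := by
    rw [inv_smul_eq_iff, hg]
  simp [rho_apply, this]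

/-- Cocycles `G → (X → ℂ)`. -/
def IsCocycle (z : G → X → ℂ) : Prop := ∀ g h, z (g * h) = z g + rho g (z h)

theorem IsCocycle.one {z : G → X → ℂ} (hz : IsCocycle z) : z 1 = 0 := by
  have h := hz 1 1
  simp only [mul_one, map_one, Module.End.one_apply] at h
  exact left_eq_add.mp h

theorem IsCocycle.inv {z : G → X → ℂ} (hz : IsCocycle z) (g : G) (h0 : z g = 0) :
    z g⁻¹ = 0 := by
  have h := hz g⁻¹ g
  rw [inv_mul_cancel, hz.one, h0, map_zero, add_zero] at h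
  exact h.symm

theorem IsCocycle.pow {z : G → X → ℂ} (hz : IsCocycle z) (g : G) (m : ℕ) :
    z (g ^ m) = (∑ j ∈ Finset.range m, (rho g : Module.End ℂ (X → ℂ)) ^ j) (z g) := by
  induction m with
  | zero => simp [hz.one]
  | succ m ih =>
    have h1 : (∑ j ∈ Finset.range (m + 1), (rho g : Module.End ℂ (X → ℂ)) ^ j) =
        1 + rho g * ∑ j ∈ Finset.range m, (rho g : Module.End ℂ (X → ℂ)) ^ j := by
      rw [Finset.sum_range_succ', pow_zero, Finset.mul_sum, add_comm]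
      congr 1
      exact Finset.sum_congr rfl fun j _ => pow_succ' _ _
    rw [pow_succ', hz, ih, h1, LinearMap.add_apply, Module.End.one_apply, Module.End.mul_apply]

theorem IsCocycle.eq_zero_of_closure {z : G → X → ℂ} (hz : IsCocycle z) (s : Set G)
    (hs : Subgroup.closure s = ⊤) (h0 : ∀ g ∈ s, z g = 0) (g : G) : z g = 0 := by
  have hg : g ∈ Subgroup.closure s := by rw [hs]; trivial
  induction hg using Subgroup.closure_induction with
  | mem x hx => exact h0 x hx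
  | one => exact hz.one
  | mul x y _ _ hx hy => rw [hz, hx, hy, map_zero, add_zero]
  | inv x _ hx => exact hz.inv x hx

end Rep

section Trace

variable {G : Type*} [Group G] {X : Type*} [MulAction G X] [Fintype X] [DecidableEq X]

theorem trace_rho (g : G) :
    LinearMap.trace ℂ (X → ℂ) (rho g) = (Nat.card {x : X // g • x = x} : ℂ) := by
  rw [LinearMap.trace_eq_matrix_trace ℂ (Pi.basisFun ℂ X), Matrix.trace]
  simp only [Matrix.diag_apply, LinearMap.toMatrix_apply, Pi.basisFun_apply, Pi.basisFun_repr,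
    rho_apply, Pi.single_apply]
  rw [Finset.sum_boole, Nat.card_eq_fintype_card, Fintype.card_subtype]
  congr 2
  ext x
  simp only [Finset.mem_filter, Finset.mem_univ, true_and]
  rw [inv_smul_eq_iff, eq_comm]

theorem finrank_ker_add_trace {V : Type*} [AddCommGroup V] [Module ℂ V] [FiniteDimensional ℂ V]
    (e : Module.End ℂ V) (he : IsIdempotentElem e) :
    (finrank ℂ (LinearMap.ker e) : ℂ) + LinearMap.trace ℂ V e = finrank ℂ V := by
  have h1 := (LinearMap.IsIdempotentElem.isProj_range e he).trace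
  have h2 := LinearMap.finrank_range_add_finrank_ker e
  rw [h1, ← h2]
  push_cast
  ring

end Trace

section Invol

variable {G : Type*} [Group G] {X : Type*} [MulAction G X] [Fintype X] [DecidableEq X]

/-- `dim ker (1 + s)` for an element acting as an involution. -/
theorem two_mul_finrank_ker_one_add (S : G) (hS2 : ∀ x : X, (S * S) • x = x) :
    2 * finrank ℂ (LinearMap.ker (1 + rho S : Module.End ℂ (X → ℂ))) +
      Nat.card {x : X // S • x = x} = Nat.card X := by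
  set s : Module.End ℂ (X → ℂ) := rho S with hs
  have hss : s * s = 1 := by
    rw [hs, ← map_mul]
    exact rho_eq_one_of_trivial _ hS2
  set e : Module.End ℂ (X → ℂ) := (1 / 2 : ℂ) • (1 + s) with he
  have hid : IsIdempotentElem e := by
    have h1 : (1 + s) * (1 + s) = (2 : ℂ) • (1 + s) := by
      rw [mul_add, add_mul, add_mul, one_mul, mul_one, one_mul, hss, two_smul]
      abel
    show e * e = e
    rw [he, smul_mul_smul_comm, h1, smul_smul]
    norm_num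
  have hker : LinearMap.ker e = LinearMap.ker (1 + s) := by
    rw [he]
    exact LinearMap.ker_smul _ _ (by norm_num)
  have hX : Nat.card X = Fintype.card X := Nat.card_eq_fintype_card
  have htr : LinearMap.trace ℂ (X → ℂ) e =
      (1 / 2 : ℂ) * ((Fintype.card X : ℂ) + (Nat.card {x : X // S • x = x} : ℂ)) := by
    rw [he, map_smul, map_add, LinearMap.trace_one, hs, trace_rho, smul_eq_mul,
      Module.finrank_fintype_fun_eq_card]
  have h := finrank_ker_add_trace e hid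
  rw [hker, htr, Module.finrank_fintype_fun_eq_card] at h
  have h2 : ((2 * finrank ℂ (LinearMap.ker (1 + s)) + Nat.card {x : X // S • x = x} : ℕ) : ℂ) =
      (Nat.card X : ℂ) := by
    rw [hX]
    push_cast
    linear_combination 2 * h
  exact_mod_cast h2

/-- `dim ker (1 + u + u²)` for an element acting with order dividing three. -/
theorem three_mul_finrank_ker (U : G) (hU3 : ∀ x : X, (U ^ 3) • x = x) :
    3 * finrank ℂ (LinearMap.ker (1 + rho U + rho U ^ 2 : Module.End ℂ (X → ℂ))) +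
      2 * Nat.card {x : X // U • x = x} = 2 * Nat.card X := by
  set u : Module.End ℂ (X → ℂ) := rho U with hu
  have huuu : u ^ 3 = 1 := by
    rw [hu, ← map_pow]
    exact rho_eq_one_of_trivial _ hU3
  set e : Module.End ℂ (X → ℂ) := (1 / 3 : ℂ) • (1 + u + u ^ 2) with he
  have hid : IsIdempotentElem e := by
    have h1 : (1 + u + u ^ 2) * (1 + u + u ^ 2) = (3 : ℂ) • (1 + u + u ^ 2) := by
      have h4 : u ^ 4 = u := by rw [pow_succ, huuu, one_mul]
      have : (1 + u + u ^ 2) * (1 + u + u ^ 2) =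
          1 + (2 : ℂ) • u + (3 : ℂ) • u ^ 2 + (2 : ℂ) • u ^ 3 + u ^ 4 := by
        simp only [two_smul, ofNat_smul_eq_nsmul]
        noncomm_ring
      rw [this, huuu, h4]
      simp only [smul_add, ofNat_smul_eq_nsmul]
      noncomm_ring
    show e * e = e
    rw [he, smul_mul_smul_comm, h1, smul_smul]
    norm_num
  have hker : LinearMap.ker e = LinearMap.ker (1 + u + u ^ 2) := by
    rw [he]
    exact LinearMap.ker_smul _ _ (by norm_num)
  have hfix : Nat.card {x : X // (U ^ 2) • x = x} = Nat.card {x : X // U • x = x} := by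
    refine Nat.card_congr (Equiv.subtypeEquivRight fun x => ?_)
    constructor
    · intro h
      have h3 := hU3 x
      rw [pow_succ', mul_smul, h] at h3
      exact h3
    · intro h
      rw [pow_two, mul_smul, h, h]
  have hX : Nat.card X = Fintype.card X := Nat.card_eq_fintype_card
  have htr : LinearMap.trace ℂ (X → ℂ) e =
      (1 / 3 : ℂ) * ((Fintype.card X : ℂ) + 2 * (Nat.card {x : X // U • x = x} : ℂ)) := by
    rw [he, map_smul, map_add, map_add, LinearMap.trace_one, hu, ← map_pow, trace_rho, trace_rho,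
      hfix, smul_eq_mul, Module.finrank_fintype_fun_eq_card]
    ring
  have h := finrank_ker_add_trace e hid
  rw [hker, htr, Module.finrank_fintype_fun_eq_card] at h
  have h2 : ((3 * finrank ℂ (LinearMap.ker (1 + u + u ^ 2)) +
      2 * Nat.card {x : X // U • x = x} : ℕ) : ℂ) = ((2 * Nat.card X : ℕ) : ℂ) := by
    rw [hX]
    push_cast
    linear_combination 3 * h
  exact_mod_cast h2

end Invol

section Shapiro

variable {G : Type*} [Group G] (Γ : Subgroup G)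

/-- Extension by zero of a homomorphism on `Γ`. -/
noncomputable def ext0 (ψ : Additive Γ →+ ℂ) (g : G) : ℂ :=
  open scoped Classical in if h : g ∈ Γ then ψ (Additive.ofMul ⟨g, h⟩) else 0

theorem ext0_of_mem (ψ : Additive Γ →+ ℂ) {g : G} (h : g ∈ Γ) :
    ext0 Γ ψ g = ψ (Additive.ofMul ⟨g, h⟩) := by
  simp [ext0, h]

theorem ext0_mul (ψ : Additive Γ →+ ℂ) {a b : G} (ha : a ∈ Γ) (hb : b ∈ Γ) :
    ext0 Γ ψ (a * b) = ext0 Γ ψ a + ext0 Γ ψ b := by
  rw [ext0_of_mem Γ ψ ha, ext0_of_mem Γ ψ hb, ext0_of_mem Γ ψ (Γ.mul_mem ha hb), ← map_add]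
  rfl

theorem ext0_one (ψ : Additive Γ →+ ℂ) : ext0 Γ ψ 1 = 0 := by
  have h := ext0_mul Γ ψ Γ.one_mem Γ.one_mem
  rw [mul_one] at h
  exact left_eq_add.mp h

theorem ext0_add (ψ₁ ψ₂ : Additive Γ →+ ℂ) (g : G) :
    ext0 Γ (ψ₁ + ψ₂) g = ext0 Γ ψ₁ g + ext0 Γ ψ₂ g := by
  by_cases h : g ∈ Γ <;> simp [ext0, h]

theorem ext0_smul (c : ℂ) (ψ : Additive Γ →+ ℂ) (g : G) :
    ext0 Γ (c • ψ) g = c * ext0 Γ ψ g := by
  by_cases h : g ∈ Γ <;> simp [ext0, h]

/-- The Shapiro cocycle of a homomorphism `ψ : Γ → ℂ`. -/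
noncomputable def shap (ψ : Additive Γ →+ ℂ) (g : G) : G ⧸ Γ → ℂ :=
  fun x => ext0 Γ ψ (x.out⁻¹ * g * (g⁻¹ • x).out)

theorem shap_mem (g : G) (x : G ⧸ Γ) : x.out⁻¹ * g * (g⁻¹ • x).out ∈ Γ := by
  rw [mul_assoc, ← QuotientGroup.eq, QuotientGroup.out_eq']
  have : (QuotientGroup.mk (g * (g⁻¹ • x).out) : G ⧸ Γ) =
      g • (QuotientGroup.mk (g⁻¹ • x).out : G ⧸ Γ) := rfl
  rw [this, QuotientGroup.out_eq', smul_inv_smul]

theorem shap_isCocycle (ψ : Additive Γ →+ ℂ) : IsCocycle (shap Γ ψ) := by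
  intro g h
  funext x
  simp only [Pi.add_apply, rho_apply, shap]
  rw [← ext0_mul Γ ψ (shap_mem Γ g x) (shap_mem Γ h (g⁻¹ • x))]
  congr 1
  rw [mul_inv_rev, mul_smul]
  group

theorem shap_apply_mk_one (ψ : Additive Γ →+ ℂ) (γ : Γ) :
    shap Γ ψ (γ : G) (QuotientGroup.mk 1 : G ⧸ Γ) = ψ (Additive.ofMul γ) := by
  have hfix : (γ : G)⁻¹ • (QuotientGroup.mk 1 : G ⧸ Γ) = QuotientGroup.mk 1 := by
    show (QuotientGroup.mk ((γ : G)⁻¹ * 1) : G ⧸ Γ) = QuotientGroup.mk 1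
    rw [QuotientGroup.eq]
    simp
  have hs0 : (QuotientGroup.mk 1 : G ⧸ Γ).out ∈ Γ := by
    have h := QuotientGroup.out_eq' (QuotientGroup.mk 1 : G ⧸ Γ)
    rw [QuotientGroup.eq] at h
    have h2 := Γ.inv_mem h
    simpa using h2
  simp only [shap, hfix]
  rw [ext0_mul Γ ψ (Γ.mul_mem (Γ.inv_mem hs0) γ.2) hs0, ext0_mul Γ ψ (Γ.inv_mem hs0) γ.2,
    ext0_of_mem Γ ψ γ.2]
  have h1 : ext0 Γ ψ (QuotientGroup.mk 1 : G ⧸ Γ).out⁻¹ +
      ext0 Γ ψ (QuotientGroup.mk 1 : G ⧸ Γ).out = 0 := by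
    rw [← ext0_mul Γ ψ (Γ.inv_mem hs0) hs0, inv_mul_cancel, ext0_one]
  linear_combination h1

/-- `z(g)(ψ, v) = c_ψ(g) + (g - 1) v`, as a linear map in `(ψ, v)`. -/
noncomputable def zmap (g : G) :
    ((Additive Γ →+ ℂ) × (G ⧸ Γ → ℂ)) →ₗ[ℂ] (G ⧸ Γ → ℂ) :=
  LinearMap.coprod
    { toFun := fun ψ => shap Γ ψ g
      map_add' := fun ψ₁ ψ₂ => by funext x; simp [shap, ext0_add]
      map_smul' := fun c ψ => by funext x; simp [shap, ext0_smul] }
    (rho g - 1)

theorem zmap_apply (g : G) (ψ : Additive Γ →+ ℂ) (v : G ⧸ Γ → ℂ) :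
    zmap Γ g (ψ, v) = shap Γ ψ g + (rho g v - v) := by
  simp [zmap, LinearMap.coprod_apply]

theorem zmap_isCocycle (ψ : Additive Γ →+ ℂ) (v : G ⧸ Γ → ℂ) :
    IsCocycle (fun g => zmap Γ g (ψ, v)) := by
  intro g h
  simp only [zmap_apply]
  rw [shap_isCocycle Γ ψ g h, map_mul, map_add, map_sub, Module.End.mul_apply]
  abel

theorem zmap_eq_zero_of_trivial (g : G) (hg : ∀ x : G ⧸ Γ, g • x = x) (ψ : Additive Γ →+ ℂ)
    (hψ : ∀ x : G ⧸ Γ, ext0 Γ ψ (x.out⁻¹ * g * x.out) = 0) (v : G ⧸ Γ → ℂ) :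
    zmap Γ g (ψ, v) = 0 := by
  rw [zmap_apply, rho_eq_one_of_trivial g hg, Module.End.one_apply, sub_self, add_zero]
  funext x
  have : g⁻¹ • x = x := by rw [inv_smul_eq_iff, hg]
  simp [shap, this, hψ x]

/-- The kernel of `(ψ, v) ↦ (z(S), z(T))` consists of `(0, constant)`. -/
theorem eq_zero_of_zmap_eq_zero (S T : G) (hgen : Subgroup.closure {S, T} = ⊤)
    (ψ : Additive Γ →+ ℂ) (v : G ⧸ Γ → ℂ)
    (hS : zmap Γ S (ψ, v) = 0) (hU : zmap Γ (S * T) (ψ, v) = 0) :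
    ψ = 0 ∧ v = fun _ => v (QuotientGroup.mk 1) := by
  have hz := zmap_isCocycle Γ ψ v
  have hT : zmap Γ T (ψ, v) = 0 := by
    have h := hz S T
    simp only [] at h
    rw [hU, hS, zero_add] at h
    have h2 := congrArg (rho S⁻¹ : Module.End ℂ (G ⧸ Γ → ℂ)) h
    rw [map_zero, ← Module.End.mul_apply, ← map_mul, inv_mul_cancel, map_one,
      Module.End.one_apply] at h2
    exact h2.symm
  have hall : ∀ g : G, zmap Γ g (ψ, v) = 0 := by
    intro g
    refine hz.eq_zero_of_closure {S, T} hgen ?_ g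
    rintro x (rfl | rfl)
    · exact hS
    · exact hT
  have hψ : ψ = 0 := by
    refine DFunLike.ext _ _ fun γ => ?_
    obtain ⟨γ, rfl⟩ := Additive.ofMul.surjective γ
    have h := congrFun (hall (γ : G)) (QuotientGroup.mk 1)
    rw [zmap_apply] at h
    have hfix : (γ : G)⁻¹ • (QuotientGroup.mk 1 : G ⧸ Γ) = QuotientGroup.mk 1 := by
      show (QuotientGroup.mk ((γ : G)⁻¹ * 1) : G ⧸ Γ) = QuotientGroup.mk 1
      rw [QuotientGroup.eq]
      simp
    simp only [Pi.add_apply, Pi.sub_apply, rho_apply, hfix, sub_self, add_zero, Pi.zero_apply] at h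
    rw [shap_apply_mk_one] at h
    simpa using h
  refine ⟨hψ, ?_⟩
  funext x
  have h := congrFun (hall x.out) x
  rw [zmap_apply, hψ] at h
  have hx : (x.out)⁻¹ • x = (QuotientGroup.mk 1 : G ⧸ Γ) := by
    calc (x.out)⁻¹ • x = (x.out)⁻¹ • (QuotientGroup.mk x.out : G ⧸ Γ) := by
          rw [QuotientGroup.out_eq']
      _ = (QuotientGroup.mk ((x.out)⁻¹ * x.out) : G ⧸ Γ) := rfl
      _ = QuotientGroup.mk 1 := by rw [inv_mul_cancel]
  have h0 : shap Γ (0 : Additive Γ →+ ℂ) x.out = 0 := by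
    funext y
    by_cases hm : (y.out)⁻¹ * x.out * ((x.out)⁻¹ • y).out ∈ Γ <;> simp [shap, ext0, hm]
  simp only [h0, Pi.add_apply, Pi.sub_apply, rho_apply, hx, Pi.zero_apply, zero_add] at h
  exact (sub_eq_zero.mp h).symm

end Shapiro

section Main

variable {G : Type*} [Group G] (Γ : Subgroup G) (S T : G) (M : ℕ)

/-- `N_T = Σ_{j<M} t^j`. -/
noncomputable def normT : Module.End ℂ (G ⧸ Γ → ℂ) :=
  ∑ j ∈ Finset.range M, (rho T : Module.End ℂ (G ⧸ Γ → ℂ)) ^ j

/-- `κ(a, b) = N_T (s (b - a))`. -/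
noncomputable def kap : ((G ⧸ Γ → ℂ) × (G ⧸ Γ → ℂ)) →ₗ[ℂ] (G ⧸ Γ → ℂ) :=
  (normT Γ T M * rho S) ∘ₗ (LinearMap.snd ℂ _ _ - LinearMap.fst ℂ _ _)

theorem kap_apply (a b : G ⧸ Γ → ℂ) :
    kap Γ S T M (a, b) = normT Γ T M (rho S (b - a)) := rfl

/-- `A = ker (1 + s)`. -/
noncomputable def Asub : Submodule ℂ (G ⧸ Γ → ℂ) :=
  LinearMap.ker (1 + rho S : Module.End ℂ (G ⧸ Γ → ℂ))

/-- `B = ker (1 + u + u²)`, `u = s t`. -/
noncomputable def Bsub : Submodule ℂ (G ⧸ Γ → ℂ) :=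
  LinearMap.ker (1 + rho (S * T) + rho (S * T) ^ 2 : Module.End ℂ (G ⧸ Γ → ℂ))

/-- The inclusion `A × B → V × V`. -/
noncomputable def inclAB : (↥(Asub Γ S) × ↥(Bsub Γ S T)) →ₗ[ℂ] ((G ⧸ Γ → ℂ) × (G ⧸ Γ → ℂ)) :=
  (Asub Γ S).subtype.prodMap (Bsub Γ S T).subtype

theorem inclAB_injective : Function.Injective (inclAB Γ S T) := by
  intro p q h
  have h1 := congrArg Prod.fst h
  have h2 := congrArg Prod.snd h
  simp only [inclAB, LinearMap.prodMap_apply, Submodule.subtype_apply] at h1 h2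
  exact Prod.ext (Subtype.ext h1) (Subtype.ext h2)

/-- `κ` restricted to `A × B`. -/
noncomputable def kapR : (↥(Asub Γ S) × ↥(Bsub Γ S T)) →ₗ[ℂ] (G ⧸ Γ → ℂ) :=
  kap Γ S T M ∘ₗ inclAB Γ S T

/-- `W = {(a, b) ∈ A × B | κ(a, b) = 0}`. -/
noncomputable def Wsub : Submodule ℂ ((G ⧸ Γ → ℂ) × (G ⧸ Γ → ℂ)) :=
  (LinearMap.ker (kapR Γ S T M)).map (inclAB Γ S T)

theorem theta_mem_Wsub
    (hS2 : ∀ x : G ⧸ Γ, (S * S) • x = x) (hU3 : ∀ x : G ⧸ Γ, ((S * T) ^ 3) • x = x)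
    (hTM : ∀ x : G ⧸ Γ, (T ^ M) • x = x)
    (ψ : Additive Γ →+ ℂ)
    (h1 : ∀ x : G ⧸ Γ, ext0 Γ ψ (x.out⁻¹ * (S * S) * x.out) = 0)
    (h2 : ∀ x : G ⧸ Γ, ext0 Γ ψ (x.out⁻¹ * (S * T) ^ 3 * x.out) = 0)
    (h3 : ∀ x : G ⧸ Γ, ext0 Γ ψ (x.out⁻¹ * T ^ M * x.out) = 0)
    (v : G ⧸ Γ → ℂ) :
    (zmap Γ S (ψ, v), zmap Γ (S * T) (ψ, v)) ∈ Wsub Γ S T M := by
  have hz := zmap_isCocycle Γ ψ v
  have hA : zmap Γ S (ψ, v) ∈ Asub Γ S := by
    rw [Asub, LinearMap.mem_ker, LinearMap.add_apply, Module.End.one_apply]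
    have h := hz S S
    simp only [] at h
    rw [zmap_eq_zero_of_trivial Γ (S * S) hS2 ψ h1 v] at h
    exact h.symm
  have hB : zmap Γ (S * T) (ψ, v) ∈ Bsub Γ S T := by
    rw [Bsub, LinearMap.mem_ker]
    have h := hz.pow (S * T) 3
    rw [zmap_eq_zero_of_trivial Γ ((S * T) ^ 3) hU3 ψ h2 v] at h
    have h' : (1 + rho (S * T) + rho (S * T) ^ 2 : Module.End ℂ (G ⧸ Γ → ℂ)) =
        ∑ j ∈ Finset.range 3, (rho (S * T) : Module.End ℂ (G ⧸ Γ → ℂ)) ^ j := by
      simp [Finset.sum_range_succ]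
    rw [h', ← h]
  have hk : kap Γ S T M (zmap Γ S (ψ, v), zmap Γ (S * T) (ψ, v)) = 0 := by
    have h := hz S T
    simp only [] at h
    have hss : rho S (rho S (zmap Γ T (ψ, v))) = zmap Γ T (ψ, v) := by
      rw [← Module.End.mul_apply, ← map_mul, rho_eq_one_of_trivial (S * S) hS2,
        Module.End.one_apply]
    rw [kap_apply, h, add_sub_cancel_left, hss]
    have h' := hz.pow T M
    rw [zmap_eq_zero_of_trivial Γ (T ^ M) hTM ψ h3 v] at h'
    exact h'.symm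
  exact Submodule.mem_map.mpr ⟨(⟨_, hA⟩, ⟨_, hB⟩), hk, rfl⟩

variable [Fintype (G ⧸ Γ)] [DecidableEq (G ⧸ Γ)]

/-- Sum-zero functions lie in `(1 - s) V + (t - 1) V`. -/
theorem aug_le (hgen : Subgroup.closure {S, T} = ⊤) (w : G ⧸ Γ → ℂ) (hw : ∑ x, w x = 0) :
    w ∈ LinearMap.range (1 - rho S : Module.End ℂ (G ⧸ Γ → ℂ)) ⊔
      LinearMap.range (rho T - 1 : Module.End ℂ (G ⧸ Γ → ℂ)) := by
  set IV := LinearMap.range (1 - rho S : Module.End ℂ (G ⧸ Γ → ℂ)) ⊔
      LinearMap.range (rho T - 1 : Module.End ℂ (G ⧸ Γ → ℂ)) with hIV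
  have key : ∀ g : G, ∀ v : G ⧸ Γ → ℂ, rho g v - v ∈ IV := by
    intro g
    have hg : g ∈ Subgroup.closure {S, T} := by rw [hgen]; trivial
    induction hg using Subgroup.closure_induction with
    | mem x hx =>
      intro v
      rcases hx with rfl | rfl
      · refine Submodule.mem_sup_left ⟨-v, ?_⟩
        simp only [LinearMap.sub_apply, Module.End.one_apply, map_neg]
        abel
      · exact Submodule.mem_sup_right ⟨v, by simp⟩
    | one => intro v; simp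
    | mul x y _ _ hx hy =>
      intro v
      have : rho (x * y) v - v = (rho x (rho y v) - rho y v) + (rho y v - v) := by
        rw [map_mul, Module.End.mul_apply]; abel
      rw [this]
      exact Submodule.add_mem _ (hx _) (hy _)
    | inv x _ hx =>
      intro v
      have h1 : rho x (rho x⁻¹ v) = v := by
        rw [← Module.End.mul_apply, ← map_mul, mul_inv_cancel, map_one, Module.End.one_apply]
      have : rho x⁻¹ v - v = -(rho x (rho x⁻¹ v) - rho x⁻¹ v) := by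
        rw [h1]; abel
      rw [this]
      exact Submodule.neg_mem _ (hx _)
  have hw' : w = ∑ x, w x • (rho x.out (Pi.single (QuotientGroup.mk 1 : G ⧸ Γ) (1 : ℂ)) -
      Pi.single (QuotientGroup.mk 1 : G ⧸ Γ) (1 : ℂ)) := by
    funext y
    have hy : ∀ x : G ⧸ Γ, (x.out)⁻¹ • y = (QuotientGroup.mk 1 : G ⧸ Γ) ↔ x = y := by
      intro x
      rw [inv_smul_eq_iff]
      have : x.out • (QuotientGroup.mk 1 : G ⧸ Γ) = x := by
        show (QuotientGroup.mk (x.out * 1) : G ⧸ Γ) = x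
        rw [mul_one, QuotientGroup.out_eq']
      rw [this, eq_comm]
    simp only [Finset.sum_apply, Pi.smul_apply, Pi.sub_apply, rho_apply, Pi.single_apply, hy,
      smul_eq_mul, mul_sub, Finset.sum_sub_distrib, ← Finset.sum_mul, hw, zero_mul, sub_zero]
    simp
  rw [hw']
  exact Submodule.sum_mem _ fun x _ => Submodule.smul_mem _ _ (key _ _)

theorem finrank_Wsub_add_le (hgen : Subgroup.closure {S, T} = ⊤)
    (hS2 : ∀ x : G ⧸ Γ, (S * S) • x = x) (hTM : ∀ x : G ⧸ Γ, (T ^ M) • x = x) (hM : M ≠ 0) :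
    finrank ℂ (Wsub Γ S T M) +
        Nat.card (MulAction.orbitRel.Quotient (Subgroup.zpowers T) (G ⧸ Γ)) ≤
      finrank ℂ (Asub Γ S) + finrank ℂ (Bsub Γ S T) + 1 := by
  classical
  set Orb := MulAction.orbitRel.Quotient (Subgroup.zpowers T) (G ⧸ Γ) with hOrb
  let _ : Fintype Orb := Fintype.ofFinite _
  have hss : (rho S : Module.End ℂ (G ⧸ Γ → ℂ)) * rho S = 1 := by
    rw [← map_mul]
    exact rho_eq_one_of_trivial _ hS2
  have htM : (rho T : Module.End ℂ (G ⧸ Γ → ℂ)) ^ M = 1 := by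
    rw [← map_pow]
    exact rho_eq_one_of_trivial _ hTM
  let mkO : G ⧸ Γ → Orb := Quotient.mk''
  let pull : (Orb → ℂ) →ₗ[ℂ] (G ⧸ Γ → ℂ) := LinearMap.funLeft ℂ ℂ mkO
  have hpull_inj : Function.Injective pull :=
    LinearMap.funLeft_injective_of_surjective ℂ ℂ mkO Quotient.mk''_surjective
  let sumV : (G ⧸ Γ → ℂ) →ₗ[ℂ] ℂ :=
    { toFun := fun v => ∑ x, v x
      map_add' := fun v w => by simp [Finset.sum_add_distrib]
      map_smul' := fun c v => by simp [Finset.mul_sum] }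
  let lam : (Orb → ℂ) →ₗ[ℂ] ℂ := sumV ∘ₗ pull
  -- the kernel of `lam` has dimension at least `c - 1`
  have hc : Nat.card Orb ≤ finrank ℂ (LinearMap.ker lam) + 1 := by
    have h := LinearMap.finrank_range_add_finrank_ker lam
    have hr : finrank ℂ (LinearMap.range lam) ≤ 1 :=
      (Submodule.finrank_le _).trans (by simp)
    rw [Module.finrank_fintype_fun_eq_card, ← Nat.card_eq_fintype_card] at h
    omega
  -- its image under `pull` lies in the range of `kapR`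
  have hle : (LinearMap.ker lam).map pull ≤ LinearMap.range (kapR Γ S T M) := by
    rintro w ⟨f, hf, rfl⟩
    have hsum : ∑ x, pull f x = 0 := hf
    obtain ⟨y₁, ⟨v₁, rfl⟩, y₂, ⟨v₂, rfl⟩, hdec⟩ :=
      Submodule.mem_sup.mp (aug_le Γ S T hgen (pull f) hsum)
    have ht : rho T (pull f) = pull f := by
      funext x
      show f (mkO (T⁻¹ • x)) = f (mkO x)
      congr 1
      refine Quotient.sound' ?_
      show T⁻¹ • x ∈ MulAction.orbit (Subgroup.zpowers T) x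
      exact ⟨⟨T⁻¹, Subgroup.inv_mem _ (Subgroup.mem_zpowers T)⟩, rfl⟩
    have htj : ∀ j : ℕ, ((rho T : Module.End ℂ (G ⧸ Γ → ℂ)) ^ j) (pull f) = pull f := by
      intro j
      induction j with
      | zero => simp
      | succ j ih => rw [pow_succ, Module.End.mul_apply, ht, ih]
    have hN1 : normT Γ T M (pull f) = (M : ℂ) • pull f := by
      rw [normT, LinearMap.sum_apply, Finset.sum_congr rfl fun j _ => htj j, Finset.sum_const,
        Finset.card_range, Nat.cast_smul_eq_nsmul]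
    have hN2 : normT Γ T M ((rho T - 1 : Module.End ℂ (G ⧸ Γ → ℂ)) v₂) = 0 := by
      rw [← Module.End.mul_apply, normT, geom_sum_mul, htM, sub_self, LinearMap.zero_apply]
    have hN3 : normT Γ T M ((1 - rho S : Module.End ℂ (G ⧸ Γ → ℂ)) v₁) = (M : ℂ) • pull f := by
      rw [← hN1, ← hdec, map_add, hN2, add_zero]
    have hs1 : rho S (rho S v₁) = v₁ := by
      rw [← Module.End.mul_apply, hss, Module.End.one_apply]
    have hA : ((M : ℂ)⁻¹ • (1 - rho S : Module.End ℂ (G ⧸ Γ → ℂ)) v₁) ∈ Asub Γ S := by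
      have h6 : (1 + rho S : Module.End ℂ (G ⧸ Γ → ℂ))
          ((1 - rho S : Module.End ℂ (G ⧸ Γ → ℂ)) v₁) = 0 := by
        simp only [LinearMap.add_apply, LinearMap.sub_apply, Module.End.one_apply, map_sub, hs1]
        abel
      rw [Asub, LinearMap.mem_ker, map_smul, h6, smul_zero]
    refine ⟨(⟨_, hA⟩, 0), ?_⟩
    show kap Γ S T M ((M : ℂ)⁻¹ • (1 - rho S : Module.End ℂ (G ⧸ Γ → ℂ)) v₁, 0) = pull f
    rw [kap_apply, zero_sub, map_neg, map_smul]
    have h5 : -(rho S ((1 - rho S : Module.End ℂ (G ⧸ Γ → ℂ)) v₁)) =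
        (1 - rho S : Module.End ℂ (G ⧸ Γ → ℂ)) v₁ := by
      simp only [LinearMap.sub_apply, Module.End.one_apply, map_sub, hs1]
      abel
    rw [← smul_neg, h5, map_smul, hN3, smul_smul, inv_mul_cancel₀ (Nat.cast_ne_zero.mpr hM),
      one_smul]
  have h1 : finrank ℂ (LinearMap.ker lam) ≤ finrank ℂ (LinearMap.range (kapR Γ S T M)) := by
    rw [(Submodule.equivMapOfInjective pull hpull_inj (LinearMap.ker lam)).finrank_eq]
    exact Submodule.finrank_mono hle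
  have h2 := LinearMap.finrank_range_add_finrank_ker (kapR Γ S T M)
  have h3 : finrank ℂ (Wsub Γ S T M) = finrank ℂ (LinearMap.ker (kapR Γ S T M)) :=
    (Submodule.equivMapOfInjective (inclAB Γ S T) (inclAB_injective Γ S T) _).finrank_eq.symm
  rw [Module.finrank_prod] at h2
  omega

theorem main_abs (hgen : Subgroup.closure {S, T} = ⊤)
    (hS2 : ∀ x : G ⧸ Γ, (S * S) • x = x) (hU3 : ∀ x : G ⧸ Γ, ((S * T) ^ 3) • x = x)
    (hTM : ∀ x : G ⧸ Γ, (T ^ M) • x = x) (hM : M ≠ 0)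
    (P : Submodule ℂ (Additive Γ →+ ℂ))
    (h1 : ∀ ψ ∈ P, ∀ x : G ⧸ Γ, ext0 Γ ψ (x.out⁻¹ * (S * S) * x.out) = 0)
    (h2 : ∀ ψ ∈ P, ∀ x : G ⧸ Γ, ext0 Γ ψ (x.out⁻¹ * (S * T) ^ 3 * x.out) = 0)
    (h3 : ∀ ψ ∈ P, ∀ x : G ⧸ Γ, ext0 Γ ψ (x.out⁻¹ * T ^ M * x.out) = 0) :
    FiniteDimensional ℂ P ∧
      6 * finrank ℂ P + 3 * Nat.card {x : G ⧸ Γ // S • x = x} +
          4 * Nat.card {x : G ⧸ Γ // (S * T) • x = x} +
          6 * Nat.card (MulAction.orbitRel.Quotient (Subgroup.zpowers T) (G ⧸ Γ)) ≤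
        Nat.card (G ⧸ Γ) + 12 := by
  classical
  let Θ : (↥P × (G ⧸ Γ → ℂ)) →ₗ[ℂ] ((G ⧸ Γ → ℂ) × (G ⧸ Γ → ℂ)) :=
    ((zmap Γ S).prod (zmap Γ (S * T))) ∘ₗ (P.subtype.prodMap LinearMap.id)
  have hΘ : ∀ (ψ : P) (v : G ⧸ Γ → ℂ),
      Θ (ψ, v) = (zmap Γ S ((ψ : Additive Γ →+ ℂ), v), zmap Γ (S * T) ((ψ : Additive Γ →+ ℂ), v)) :=
    fun ψ v => rfl
  have hfin : FiniteDimensional ℂ P := by
    let j : ↥P →ₗ[ℂ] ((G ⧸ Γ → ℂ) × (G ⧸ Γ → ℂ)) := Θ ∘ₗ LinearMap.inl ℂ _ _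
    refine FiniteDimensional.of_injective j ?_
    rw [← LinearMap.ker_eq_bot, LinearMap.ker_eq_bot']
    intro ψ hψ
    have h : Θ (ψ, 0) = 0 := hψ
    rw [hΘ, Prod.mk_eq_zero] at h
    exact Subtype.ext (eq_zero_of_zmap_eq_zero Γ S T hgen _ _ h.1 h.2).1
  refine ⟨hfin, ?_⟩
  -- the kernel of `Θ` is at most one-dimensional
  have hker : finrank ℂ (LinearMap.ker Θ) ≤ 1 := by
    have hle : LinearMap.ker Θ ≤ Submodule.span ℂ {((0 : P), (fun _ => (1 : ℂ) : G ⧸ Γ → ℂ))} := by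
      rintro ⟨ψ, v⟩ hp
      have h : Θ (ψ, v) = 0 := hp
      rw [hΘ, Prod.mk_eq_zero] at h
      obtain ⟨hψ, hv⟩ := eq_zero_of_zmap_eq_zero Γ S T hgen _ _ h.1 h.2
      refine Submodule.mem_span_singleton.mpr ⟨v (QuotientGroup.mk 1), ?_⟩
      refine Prod.ext ?_ ?_
      · simp only [Prod.smul_mk, smul_zero]
        exact (Subtype.ext hψ).symm
      · simp only [Prod.smul_mk]
        rw [hv]
        funext x
        simp
    refine (Submodule.finrank_mono hle).trans ((finrank_span_le_card _).trans ?_)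
    simp
  have hrange : finrank ℂ (LinearMap.range Θ) ≤ finrank ℂ (Wsub Γ S T M) := by
    refine Submodule.finrank_mono ?_
    rintro _ ⟨⟨ψ, v⟩, rfl⟩
    rw [hΘ]
    exact theta_mem_Wsub Γ S T M hS2 hU3 hTM ψ (h1 ψ ψ.2) (h2 ψ ψ.2) (h3 ψ ψ.2) v
  have hrn := LinearMap.finrank_range_add_finrank_ker Θ
  rw [Module.finrank_prod, Module.finrank_fintype_fun_eq_card, ← Nat.card_eq_fintype_card] at hrn
  have hL2 := finrank_Wsub_add_le Γ S T M hgen hS2 hTM hM
  have hL3 : 2 * finrank ℂ (Asub Γ S) + Nat.card {x : G ⧸ Γ // S • x = x} = Nat.card (G ⧸ Γ) :=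
    two_mul_finrank_ker_one_add S hS2
  have hL4 : 3 * finrank ℂ (Bsub Γ S T) + 2 * Nat.card {x : G ⧸ Γ // (S * T) • x = x} =
      2 * Nat.card (G ⧸ Γ) :=
    three_mul_finrank_ker (S * T) hU3
  omega

end Main

end Fermat.Agent.S21.DimAbs
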