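import Mathlib
import Fermat.Prelude.Def_ModularCurve_PeriodHomPair
import Fermat.Prelude.Def_ModularCurve_GenusNumerics
import Fermat.Agent.S20.Cosets
import Fermat.Agent.S21.DimAbs

/-!
# S21, module (D): `dim H¹_par(Γ₀(N), ℂ) ≤ 2 g` by linear algebra on `ℂ^(SL(2,ℤ)/Γ₀(N))`
-/

set_option autoImplicit false

namespace Fermat.Agent.S21

open CongruenceSubgroup ModularCurve ModularCurve.Period
open scoped MatrixGroups

namespace Dim

open ModularGroup Fermat.Agent.S20 Fermat.Agent.S21.DimAbs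

theorem S_mul_S : S * S = (-1 : SL(2, ℤ)) := by decide

theorem ST_pow_three : (S * T) ^ 3 = (-1 : SL(2, ℤ)) := by decide

theorem neg_one_mem (N : ℕ) : (-1 : SL(2, ℤ)) ∈ Gamma0 N := by
  rw [Gamma0_mem]
  simp

theorem neg_one_smul (N : ℕ) (x : SL(2, ℤ) ⧸ Gamma0 N) : (-1 : SL(2, ℤ)) • x = x := by
  obtain ⟨g, rfl⟩ := QuotientGroup.mk_surjective x
  show (QuotientGroup.mk ((-1 : SL(2, ℤ)) * g) : SL(2, ℤ) ⧸ Gamma0 N) = QuotientGroup.mk g
  rw [QuotientGroup.eq]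
  have : ((-1 : SL(2, ℤ)) * g)⁻¹ * g = -1 := by
    rw [neg_one_mul, inv_neg, neg_mul, inv_mul_cancel]
  rw [this]
  exact neg_one_mem N

theorem trace_conj (h g : SL(2, ℤ)) :
    ((h⁻¹ * g * h : SL(2, ℤ)) : Matrix (Fin 2) (Fin 2) ℤ).trace =
      (g : Matrix (Fin 2) (Fin 2) ℤ).trace := by
  rw [Matrix.SpecialLinearGroup.coe_mul, Matrix.trace_mul_comm, ← Matrix.SpecialLinearGroup.coe_mul,
    mul_inv_cancel_left]

/-- A parabolic homomorphism, extended by zero, vanishes on conjugates of elements with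
`trace² = 4`. -/
theorem ext0_conj_eq_zero (N : ℕ) (ψ : Additive (Gamma0 N) →+ ℂ)
    (hψ : ψ ∈ parabolicHoms ℂ (Gamma0 N) ℂ) (g : SL(2, ℤ))
    (hg : (g : Matrix (Fin 2) (Fin 2) ℤ).trace ^ 2 = 4) (h : SL(2, ℤ)) :
    ext0 (Gamma0 N) ψ (h⁻¹ * g * h) = 0 := by
  by_cases hm : h⁻¹ * g * h ∈ Gamma0 N
  · rw [ext0_of_mem _ ψ hm]
    refine hψ ⟨_, hm⟩ ?_
    show ((h⁻¹ * g * h : SL(2, ℤ)) : Matrix (Fin 2) (Fin 2) ℤ).trace ^ 2 = 4
    rw [trace_conj, hg]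
  · simp [ext0, hm]

theorem trace_neg_one : ((-1 : SL(2, ℤ)) : Matrix (Fin 2) (Fin 2) ℤ).trace ^ 2 = 4 := by
  decide

theorem trace_T_pow (n : ℕ) : ((T ^ n : SL(2, ℤ)) : Matrix (Fin 2) (Fin 2) ℤ).trace ^ 2 = 4 := by
  rw [← zpow_natCast, coe_T_zpow]
  simp [Matrix.trace_fin_two]

theorem main (N : ℕ) [NeZero N] :
    FiniteDimensional ℂ (parabolicHoms ℂ (Gamma0 N) ℂ) ∧
      6 * Module.finrank ℂ (parabolicHoms ℂ (Gamma0 N) ℂ) + 3 * nuTwo N + 4 * nuThree N +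
        6 * cuspCount N ≤ dedekindPsi N + 12 := by
  classical
  have hcard : Nat.card (SL(2, ℤ) ⧸ Gamma0 N) = dedekindPsi N := Cosets.card_quotient_eq N
  let _ : Fintype (SL(2, ℤ) ⧸ Gamma0 N) := Fintype.ofFinite _
  have h := main_abs (Gamma0 N) S T N SpecialLinearGroup.SL2Z_generators
    (fun x => by rw [S_mul_S]; exact neg_one_smul N x)
    (fun x => by rw [ST_pow_three]; exact neg_one_smul N x)
    (fun x => by
      have := Cosets.T_pow_smul N x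
      rwa [zpow_natCast] at this)
    (NeZero.ne N) (parabolicHoms ℂ (Gamma0 N) ℂ)
    (fun ψ hψ x => by
      rw [S_mul_S]
      exact ext0_conj_eq_zero N ψ hψ _ trace_neg_one _)
    (fun ψ hψ x => by
      rw [ST_pow_three]
      exact ext0_conj_eq_zero N ψ hψ _ trace_neg_one _)
    (fun ψ hψ x => ext0_conj_eq_zero N ψ hψ _ (trace_T_pow N) _)
  refine ⟨h.1, ?_⟩
  have h2 := h.2
  rw [Cosets.card_fixed_S, Cosets.card_fixed_ST, Cosets.card_orbits_T, hcard] at h2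
  exact h2

end Dim

/-- (D1) -/
theorem finiteDimensional_parabolicHoms (N : ℕ) [NeZero N] :
    FiniteDimensional ℂ (parabolicHoms ℂ (Gamma0 N) ℂ) :=
  (Dim.main N).1

/-- (D2) -/
theorem finrank_parabolicHoms_le (N : ℕ) [NeZero N] :
    (Module.finrank ℂ (parabolicHoms ℂ (Gamma0 N) ℂ) : ℚ) ≤ 2 * genusFormula N := by
  have h := (Dim.main N).2
  have h' : ((6 * Module.finrank ℂ (parabolicHoms ℂ (Gamma0 N) ℂ) + 3 * nuTwo N + 4 * nuThree N +
        6 * cuspCount N : ℕ) : ℚ) ≤ ((dedekindPsi N + 12 : ℕ) : ℚ) := by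
    exact_mod_cast h
  push_cast at h'
  unfold genusFormula
  linarith

end Fermat.Agent.S21
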