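import Mathlib

/-!
# S21, module (I), part 0: maximum modulus principle on `Γ₀(N)\ℍ*`
-/

set_option autoImplicit false

namespace Fermat.Agent.S21

open UpperHalfPlane CongruenceSubgroup
open scoped MatrixGroups ModularForm Manifold Topology

local notation "𝕢" => Function.Periodic.qParam

namespace MaxMod

open Function

/-- function-level: `w ↦ Φ (δ • w)` is holomorphic. -/
theorem mdiff_comp_smul (Φ : ℍ → ℂ) (hΦ : MDiff Φ) (δ : SL(2, ℤ)) :
    MDiff (fun w : ℍ => Φ (δ • w)) := by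
  have h := hΦ.slash 0 (δ : GL (Fin 2) ℝ)
  have e : (Φ ∣[(0 : ℤ)] (δ : GL (Fin 2) ℝ)) = fun w : ℍ => Φ (δ • w) := by
    funext w
    rw [← ModularForm.SL_slash, ModularForm.SL_slash_apply]
    simp
  rwa [e] at h

/-- `N`-periodicity on `ℍ` gives periodicity of the extension by `ofComplex`. -/
theorem periodic_comp_ofComplex (N : ℕ) (φ : ℍ → ℂ)
    (hper : ∀ w : ℍ, φ ((N : ℝ) +ᵥ w) = φ w) : Periodic (φ ∘ ofComplex) (N : ℝ) := by
  intro w
  by_cases hw : 0 < Complex.im w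
  · have hw' : 0 < Complex.im (w + (N : ℝ)) := by simp [hw]
    simp only [comp_apply, ofComplex_apply_of_im_pos hw', ofComplex_apply_of_im_pos hw]
    rw [← hper ⟨w, hw⟩]
    congr 1
    ext
    simp [add_comm]
  · have hw0 : Complex.im w ≤ 0 := not_lt.mp hw
    have hw' : Complex.im (w + (N : ℝ)) ≤ 0 := by simpa using hw0
    simp only [comp_apply]
    rw [ofComplex_apply_of_im_nonpos hw', ofComplex_apply_of_im_nonpos hw0]

end MaxMod

open Function in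
/-- (I0) maximum modulus principle on `Γ₀(N)\ℍ*`: a holomorphic function on `ℍ` whose modulus is
`Γ₀(N)`-invariant and all of whose `SL(2,ℤ)`-translates are `N`-periodic and bounded at `i∞`
is constant. -/
theorem eq_const_of_norm_invariant (N : ℕ) [NeZero N] (Φ : ℍ → ℂ) (hΦ : MDiff Φ)
    (hinv : ∀ γ ∈ Gamma0 N, ∀ z : ℍ, ‖Φ (γ • z)‖ = ‖Φ z‖)
    (hper : ∀ (δ : SL(2, ℤ)) (w : ℍ), Φ (δ • ((N : ℝ) +ᵥ w)) = Φ (δ • w))
    (hbdd : ∀ δ : SL(2, ℤ), IsBoundedAtImInfty (fun w : ℍ => Φ (δ • w))) :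
    ∃ c : ℂ, ∀ z : ℍ, Φ z = c := by
  classical
  have hNpos : (0 : ℝ) < N := by exact_mod_cast Nat.pos_of_ne_zero (NeZero.ne N)
  let _ : Fintype (SL(2, ℤ) ⧸ Gamma0 N) := Fintype.ofFinite _
  set s : SL(2, ℤ) ⧸ Gamma0 N → SL(2, ℤ) := Quotient.out with hs
  set φ : SL(2, ℤ) ⧸ Gamma0 N → ℍ → ℂ := fun x w => Φ ((s x)⁻¹ • w) with hφ
  have hφdiff : ∀ x, MDiff (φ x) := fun x => MaxMod.mdiff_comp_smul Φ hΦ _
  have hφper : ∀ x, Periodic (φ x ∘ ofComplex) (N : ℝ) :=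
    fun x => MaxMod.periodic_comp_ofComplex N _ (hper _)
  have hφbdd : ∀ x, IsBoundedAtImInfty (φ x) := fun x => hbdd _
  -- norm equivariance
  have hnorm : ∀ (g : SL(2, ℤ)) (x : SL(2, ℤ) ⧸ Gamma0 N) (w : ℍ),
      ‖φ x (g • w)‖ = ‖φ (g⁻¹ • x) w‖ := by
    intro g x w
    have hx : ((s (g⁻¹ • x) : SL(2, ℤ)) : SL(2, ℤ) ⧸ Gamma0 N) =
        ((g⁻¹ * s x : SL(2, ℤ)) : SL(2, ℤ) ⧸ Gamma0 N) := by
      rw [hs, QuotientGroup.out_eq']
      conv_lhs => rw [← QuotientGroup.out_eq' x]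
      rfl
    have hγ : (s (g⁻¹ • x))⁻¹ * (g⁻¹ * s x) ∈ Gamma0 N := QuotientGroup.eq.mp hx
    have hmul : (s x)⁻¹ * g = ((s (g⁻¹ • x))⁻¹ * (g⁻¹ * s x))⁻¹ * (s (g⁻¹ • x))⁻¹ := by
      group
    show ‖Φ ((s x)⁻¹ • g • w)‖ = ‖Φ ((s (g⁻¹ • x))⁻¹ • w)‖
    rw [← mul_smul, hmul, mul_smul]
    exact hinv _ (inv_mem hγ) _
  set Ψ : ℂ → EuclideanSpace ℂ (SL(2, ℤ) ⧸ Gamma0 N) :=
    fun q => WithLp.toLp 2 (fun x => cuspFunction N (φ x) q) with hΨ
  have hΨdiff : DifferentiableOn ℂ Ψ (Metric.ball 0 1) := by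
    rw [differentiableOn_euclidean]
    intro x
    exact differentiableOn_cuspFunction_ball hNpos (hφper x) (hφdiff x) (hφbdd x)
  have hΨq : ∀ z : ℍ, ‖Ψ (𝕢 N z)‖ = Real.sqrt (∑ x, ‖φ x z‖ ^ 2) := by
    intro z
    rw [EuclideanSpace.norm_eq]
    congr 1
    refine Finset.sum_congr rfl fun x _ => ?_
    rw [show (Ψ (𝕢 N z)) x = cuspFunction N (φ x) (𝕢 N z) from rfl,
      eq_cuspFunction z hNpos.ne' (hφper x)]
  have hr : Real.exp (-Real.pi / N) < 1 := by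
    rw [Real.exp_lt_one_iff]
    exact div_neg_of_neg_of_pos (neg_lt_zero.mpr Real.pi_pos) hNpos
  have hconst := Complex.eq_const_of_exists_le (r := Real.exp (-Real.pi / N)) (b := 1) hΨdiff
    (Real.exp_nonneg _) hr (by
      intro q hq
      rcases eq_or_ne q 0 with rfl | hq0
      · exact ⟨0, by simp [Real.exp_nonneg], le_rfl⟩
      · set z : ℍ := ⟨Periodic.invQParam N q, Periodic.im_invQParam_pos_of_norm_lt_one hNpos
          (mem_ball_zero_iff.mp hq) hq0⟩ with hz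
        have hzq : 𝕢 N z = q := Periodic.qParam_right_inv hNpos.ne' hq0
        obtain ⟨g, hg⟩ := ModularGroup.exists_one_half_le_im_smul z
        refine ⟨𝕢 N ((g • z : ℍ) : ℂ), ?_, ?_⟩
        · rw [mem_closedBall_zero_iff, Periodic.norm_qParam, Real.exp_le_exp]
          rw [div_le_div_iff_of_pos_right hNpos]
          have : (1:ℝ) / 2 ≤ Complex.im ((g • z : ℍ) : ℂ) := hg
          nlinarith [Real.pi_pos]
        · rw [← hzq, hΨq, hΨq]
          apply le_of_eq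
          congr 1
          simp_rw [hnorm g]
          exact (Equiv.sum_comp (MulAction.toPerm g⁻¹) (fun x => ‖φ x z‖ ^ 2)).symm)
  have key : ∀ x (z : ℍ), φ x z = (Ψ 0) x := by
    intro x z
    have hmem : 𝕢 N z ∈ Metric.ball (0 : ℂ) 1 := by
      simpa using UpperHalfPlane.norm_qParam_lt_one N z
    have h1 := hconst hmem
    have h2 : (Ψ (𝕢 N z)) x = (Ψ 0) x := by rw [h1]; rfl
    rw [← eq_cuspFunction z hNpos.ne' (hφper x)]
    exact h2
  refine ⟨(Ψ 0) (QuotientGroup.mk 1), fun z => ?_⟩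
  have h := key (QuotientGroup.mk 1) (s (QuotientGroup.mk 1) • z)
  simp only [hφ, inv_smul_smul] at h
  exact h

end Fermat.Agent.S21
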