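import Fermat.Agent.S21.Primitive
import Fermat.Agent.S21.MaxMod

/-!
# S21, module (I): injectivity of `periodHomPair` (maximum modulus argument)
-/

set_option autoImplicit false

namespace Fermat.Agent.S21

open UpperHalfPlane CongruenceSubgroup ModularCurve ModularCurve.Period
open scoped MatrixGroups ModularForm Manifold Topology ComplexConjugate

namespace Injective

/-- `jConjSL δ = J δ J` in `GL(2,ℝ)`. -/
theorem coe_jConjSL (δ : SL(2, ℤ)) :
    ((jConjSL δ : SL(2, ℤ)) : GL (Fin 2) ℝ) = J * (δ : GL (Fin 2) ℝ) * J := by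
  ext i j
  fin_cases i <;> fin_cases j <;>
    simp [jConjMat, Matrix.mul_apply, Fin.sum_univ_two, Matrix.vecMul, dotProduct]

theorem jConjSL_smul_J (δ : SL(2, ℤ)) (z : ℍ) : (jConjSL δ) • (J • z) = J • (δ • z) := by
  have h1 : (jConjSL δ) • (J • z) = ((jConjSL δ : SL(2, ℤ)) : GL (Fin 2) ℝ) • (J • z) := rfl
  have h2 : δ • z = (δ : GL (Fin 2) ℝ) • z := rfl
  rw [h1, h2, coe_jConjSL, ← mul_smul, ← mul_smul, mul_assoc, ← sq, J_sq, mul_one]

theorem J_smul_J (z : ℍ) : J • (J • z) = z := by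
  rw [← mul_smul, ← sq, J_sq, one_smul]

theorem im_J_smul (z : ℍ) : (J • z).im = z.im := by
  have : ((J • z : ℍ) : ℂ).im = (z : ℂ).im := by rw [coe_J_smul]; simp
  exact this

theorem J_vadd (x : ℝ) (w : ℍ) : J • (x +ᵥ w) = (-x) +ᵥ (J • w) := by
  ext
  simp [coe_J_smul, coe_vadd]
  ring

theorem tendsto_J : Filter.Tendsto (fun w : ℍ => J • w) atImInfty atImInfty := by
  rw [atImInfty, Filter.tendsto_comap_iff]
  have : (im ∘ fun w : ℍ => J • w) = im := funext im_J_smul
  rw [this]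
  exact Filter.tendsto_comap

theorem slash_J (F : ℍ → ℂ) : F ∣[(0 : ℤ)] J = fun τ : ℍ => conj (F (J • τ)) := by
  funext τ
  have h10 : ¬ ((1 : ℝ) < 0) := not_lt.mpr zero_le_one
  simp [ModularForm.slash_def, UpperHalfPlane.σ, UpperHalfPlane.denom, h10]

/-- conjugates of `T^N` lie in `Γ₀(N)`. -/
theorem conj_T_pow_mem (N : ℕ) (δ : SL(2, ℤ)) :
    δ * ModularGroup.T ^ (N : ℤ) * δ⁻¹ ∈ Gamma0 N := by
  have h1 : ModularGroup.T ^ (N : ℤ) ∈ Gamma N := by
    simpa using ModularGroup_T_pow_mem_Gamma (N : ℤ) (N : ℤ) dvd_rfl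
  have h2 : δ * ModularGroup.T ^ (N : ℤ) * δ⁻¹ ∈ Gamma N := (Gamma_normal N).conj_mem _ h1 δ
  rw [Gamma_mem] at h2
  rw [Gamma0_mem]
  exact h2.2.2.1

variable {N : ℕ} {f : CuspForm (Gamma0 N) 2} {F : ℍ → ℂ}

/-- all `SL(2,ℤ)`-translates of the primitive are `N`-periodic: the period over the parabolic
element `δ T^N δ⁻¹` is a constant tending to `L_δ - L_δ = 0`. -/
theorem F_periodic (hF : HasEquivariantPrimitive N f F) (δ : SL(2, ℤ)) (w : ℍ) :
    F (δ • ((N : ℝ) +ᵥ w)) = F (δ • w) := by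
  have hsmul : ∀ w : ℍ,
      (δ * ModularGroup.T ^ (N : ℤ) * δ⁻¹) • (δ • w) = δ • ((N : ℝ) +ᵥ w) := by
    intro w
    rw [← mul_smul, inv_mul_cancel_right, mul_smul, modular_T_zpow_smul]
    simp
  have hconst : ∀ w : ℍ, F (δ • ((N : ℝ) +ᵥ w)) - F (δ • w) =
      periodMap N f (Additive.ofMul ⟨_, conj_T_pow_mem N δ⟩) := by
    intro w
    have := periodMap_apply hF ⟨_, conj_T_pow_mem N δ⟩ (δ • w)
    rw [Subgroup.coe_mk, hsmul] at this
    exact this.symm
  obtain ⟨L, hL⟩ := hF.2.2.2 δ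
  have hshift : Filter.Tendsto (fun w : ℍ => (N : ℝ) +ᵥ w) atImInfty atImInfty := by
    rw [atImInfty, Filter.tendsto_comap_iff]
    have : (im ∘ fun w : ℍ => (N : ℝ) +ᵥ w) = im := funext fun w => vadd_im _ _
    rw [this]
    exact Filter.tendsto_comap
  have h1 : Filter.Tendsto (fun w : ℍ => F (δ • ((N : ℝ) +ᵥ w)) - F (δ • w)) atImInfty
      (𝓝 (L - L)) := (hL.comp hshift).sub hL
  have h2 : periodMap N f (Additive.ofMul ⟨_, conj_T_pow_mem N δ⟩) = L - L :=
    tendsto_nhds_unique (tendsto_const_nhds.congr fun w => (hconst w).symm) h1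
  rw [← sub_eq_zero, hconst w, h2, sub_self]

/-- all `SL(2,ℤ)`-translates of the reflected primitive are `N`-periodic -/
theorem FJ_periodic (hF : HasEquivariantPrimitive N f F) (δ : SL(2, ℤ)) (w : ℍ) :
    F (J • (δ • ((N : ℝ) +ᵥ w))) = F (J • (δ • w)) := by
  rw [← jConjSL_smul_J, ← jConjSL_smul_J, J_vadd]
  have h := F_periodic hF (jConjSL δ) ((-(N : ℝ)) +ᵥ (J • w))
  rw [vadd_neg_vadd] at h
  exact h.symm

/-- the primitive is holomorphic -/
theorem F_mdiff (hF : HasEquivariantPrimitive N f F) : MDiff F := by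
  rw [UpperHalfPlane.mdifferentiable_iff]
  intro z hz
  exact (hF.1 ⟨z, hz⟩).differentiableAt.differentiableWithinAt

theorem FJ_mdiff (hF : HasEquivariantPrimitive N f F) :
    MDiff (fun τ : ℍ => conj (F (J • τ))) := by
  have h := (F_mdiff hF).slash 0 J
  rwa [slash_J] at h

/-- `exp (a F + b B)` is constant as soon as its modulus is `Γ₀(N)`-invariant, where
`B = conj ∘ F ∘ J`. -/
theorem exp_const [NeZero N] (hF : HasEquivariantPrimitive N f F) (a b : ℂ)
    (hinv : ∀ γ ∈ Gamma0 N, ∀ z : ℍ,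
      ‖Complex.exp (a * F (γ • z) + b * conj (F (J • (γ • z))))‖ =
        ‖Complex.exp (a * F z + b * conj (F (J • z)))‖) :
    ∃ c : ℂ, ∀ z : ℍ, Complex.exp (a * F z + b * conj (F (J • z))) = c := by
  refine eq_const_of_norm_invariant N (fun z : ℍ => Complex.exp (a * F z + b * conj (F (J • z))))
    ?_ hinv ?_ ?_
  · rw [mdifferentiable_iff]
    have h1 := UpperHalfPlane.mdifferentiable_iff.mp (F_mdiff hF)
    have h2 := UpperHalfPlane.mdifferentiable_iff.mp (FJ_mdiff hF)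
    exact ((h1.const_mul a).add (h2.const_mul b)).cexp
  · intro δ w
    simp only [F_periodic hF δ w, FJ_periodic hF δ w]
  · intro δ
    obtain ⟨L₁, hL₁⟩ := hF.2.2.2 δ
    obtain ⟨L₂, hL₂⟩ := hF.2.2.2 (jConjSL δ)
    have h2 : Filter.Tendsto (fun w : ℍ => conj (F (J • (δ • w)))) atImInfty (𝓝 (conj L₂)) := by
      have := (Complex.continuous_conj.tendsto L₂).comp (hL₂.comp tendsto_J)
      refine this.congr fun w => ?_
      simp only [Function.comp_apply, jConjSL_smul_J]
    have h3 : Filter.Tendsto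
        (fun w : ℍ => Complex.exp (a * F (δ • w) + b * conj (F (J • (δ • w))))) atImInfty
        (𝓝 (Complex.exp (a * L₁ + b * conj L₂))) :=
      (Complex.continuous_exp.tendsto _).comp ((hL₁.const_mul a).add (h2.const_mul b))
    exact h3.isBigO_one ℝ

/-- if `exp (a F + b B)` is constant then `a F' + b B' = 0`. -/
theorem deriv_eq_zero_of_exp_const (hF : HasEquivariantPrimitive N f F) (a b : ℂ)
    (hc : ∃ c : ℂ, ∀ z : ℍ, Complex.exp (a * F z + b * conj (F (J • z))) = c) (τ : ℍ) (b' : ℂ)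
    (hb' : HasDerivAt ((fun τ : ℍ => conj (F (J • τ))) ∘ ofComplex) b' τ) :
    a * f τ + b * b' = 0 := by
  obtain ⟨c, hc⟩ := hc
  have h1 : HasDerivAt (fun z : ℂ => Complex.exp (a * (F ∘ ofComplex) z +
      b * ((fun τ : ℍ => conj (F (J • τ))) ∘ ofComplex) z))
      (Complex.exp (a * (F ∘ ofComplex) (τ : ℂ) +
        b * ((fun τ : ℍ => conj (F (J • τ))) ∘ ofComplex) (τ : ℂ)) * (a * f τ + b * b'))
      (τ : ℂ) :=
    (((hF.1 τ).const_mul a).add (hb'.const_mul b)).cexp
  have h2 : (fun z : ℂ => Complex.exp (a * (F ∘ ofComplex) z +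
      b * ((fun τ : ℍ => conj (F (J • τ))) ∘ ofComplex) z)) = fun _ => c := by
    funext z
    exact hc (ofComplex z)
  rw [h2] at h1
  have h3 := h1.unique (hasDerivAt_const (τ : ℂ) c)
  exact (mul_eq_zero.mp h3).resolve_left (Complex.exp_ne_zero _)

/-- core: `(1 + ε ι) P_f = 0` (`ε` real) forces `f = 0`. -/
theorem eq_zero_of_period_symm (N : ℕ) [NeZero N] (f : CuspForm (Gamma0 N) 2) (ε : ℝ)
    (h : ∀ γ : Gamma0 N, periodMap N f (Additive.ofMul γ) +
        (ε : ℂ) * periodMap N f (Additive.ofMul (jConjGamma0 N γ)) = 0) : f = 0 := by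
  obtain ⟨F, hF⟩ := exists_hasEquivariantPrimitive N f
  -- invariance of `H = F + ε F ∘ J`
  have hH : ∀ γ ∈ Gamma0 N, ∀ z : ℍ,
      F (γ • z) + ε * F (J • (γ • z)) = F z + ε * F (J • z) := by
    intro γ hγ z
    have h1 := periodMap_apply hF ⟨γ, hγ⟩ z
    have h2 := periodMap_apply hF (jConjGamma0 N ⟨γ, hγ⟩) (J • z)
    have h3 := h ⟨γ, hγ⟩
    rw [jConjGamma0_coe, Subgroup.coe_mk, jConjSL_smul_J] at h2
    rw [Subgroup.coe_mk] at h1
    rw [h1, h2] at h3
    linear_combination h3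
  have hc1 := exp_const hF 1 ε (by
    intro γ hγ z
    rw [Complex.norm_exp, Complex.norm_exp]
    congr 1
    have := congrArg Complex.re (hH γ hγ z)
    simpa using this)
  have hc2 := exp_const hF (-Complex.I) (Complex.I * ε) (by
    intro γ hγ z
    rw [Complex.norm_exp, Complex.norm_exp]
    congr 1
    have := congrArg Complex.im (hH γ hγ z)
    simp at this ⊢
    linarith)
  ext τ
  have hBd : DifferentiableAt ℂ ((fun τ : ℍ => conj (F (J • τ))) ∘ ofComplex) (τ : ℂ) :=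
    (UpperHalfPlane.mdifferentiable_iff.mp (FJ_mdiff hF)).differentiableAt
      (isOpen_upperHalfPlaneSet.mem_nhds τ.im_pos)
  have e1 := deriv_eq_zero_of_exp_const hF 1 ε hc1 τ _ hBd.hasDerivAt
  have e2 := deriv_eq_zero_of_exp_const hF (-Complex.I) (Complex.I * ε) hc2 τ _ hBd.hasDerivAt
  have e3 : f τ - ε * deriv ((fun τ : ℍ => conj (F (J • τ))) ∘ ofComplex) (τ : ℂ) = 0 := by
    have : Complex.I * (-Complex.I * f τ + Complex.I * ε *
        deriv ((fun τ : ℍ => conj (F (J • τ))) ∘ ofComplex) (τ : ℂ)) = 0 := by rw [e2, mul_zero]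
    have hI : Complex.I * Complex.I = -1 := Complex.I_mul_I
    linear_combination this + (f τ - ε * deriv ((fun τ : ℍ => conj (F (J • τ))) ∘ ofComplex) (τ : ℂ)) * hI
  have : (2 : ℂ) * f τ = 0 := by linear_combination e1 + e3
  simpa using this

end Injective

/-- (I1) injectivity of `periodHomPair`. -/
theorem periodHomPair_injective (N : ℕ) [NeZero N] : Function.Injective (periodHomPair N) := by
  rw [injective_iff_map_eq_zero]
  rintro ⟨f, g⟩ hfg
  have key : ∀ γ : Gamma0 N,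
      (periodMap N f (Additive.ofMul γ) + periodMap N f (Additive.ofMul (jConjGamma0 N γ))) +
      (periodMap N g (Additive.ofMul γ) - periodMap N g (Additive.ofMul (jConjGamma0 N γ)))
        = 0 := by
    intro γ
    rw [← periodHomPair_apply, hfg]
    rfl
  have hf : f = 0 := Injective.eq_zero_of_period_symm N f 1 (by
    intro γ
    have h1 := key γ
    have h2 := key (jConjGamma0 N γ)
    rw [jConjGamma0_jConjGamma0] at h2
    push_cast
    linear_combination (1 / 2 : ℂ) * h1 + (1 / 2 : ℂ) * h2)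
  have hg : g = 0 := Injective.eq_zero_of_period_symm N g (-1) (by
    intro γ
    have h1 := key γ
    have h2 := key (jConjGamma0 N γ)
    rw [jConjGamma0_jConjGamma0] at h2
    push_cast
    linear_combination (1 / 2 : ℂ) * h1 - (1 / 2 : ℂ) * h2)
  rw [hf, hg]
  rfl

end Fermat.Agent.S21
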