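import Fermat.Agent.S21.Parabolic
import Fermat.Agent.S21.Injective
import Fermat.Agent.S21.Dim

/-!
# S21: assembly, conditional on the dimension formula (S20)
-/

set_option autoImplicit false

namespace Fermat.Agent.S21

open UpperHalfPlane CongruenceSubgroup ModularCurve ModularCurve.Period
open scoped MatrixGroups ModularForm Manifold Topology

/-- S21 from the dimension formula for `S₂(Γ₀(N))`. -/
theorem result_of_finrank (N : ℕ) [NeZero N]
    (h20 : (Module.finrank ℂ (CuspForm (Gamma0 N) 2) : ℚ) = genusFormula N) :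
    Function.Injective (periodHomPair N) ∧
      LinearMap.range (periodHomPair N) = parabolicHoms ℂ (Gamma0 N) ℂ := by
  have hinj := periodHomPair_injective N
  refine ⟨hinj, ?_⟩
  have hle := range_periodHomPair_le N
  have hfd : FiniteDimensional ℂ (parabolicHoms ℂ (Gamma0 N) ℂ) :=
    finiteDimensional_parabolicHoms N
  -- the source is finite-dimensional, since it injects into `parabolicHoms`
  set φ : (CuspForm (Gamma0 N) 2 × CuspForm (Gamma0 N) 2) →ₗ[ℂ] parabolicHoms ℂ (Gamma0 N) ℂ :=
    LinearMap.codRestrict _ (periodHomPair N) (fun x => hle (LinearMap.mem_range_self _ x)) with hφ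
  have hφinj : Function.Injective φ := by
    intro x y hxy
    apply hinj
    have := congrArg Subtype.val hxy
    simpa [hφ] using this
  have hfd2 : FiniteDimensional ℂ (CuspForm (Gamma0 N) 2 × CuspForm (Gamma0 N) 2) :=
    FiniteDimensional.of_injective φ hφinj
  have hfd1 : FiniteDimensional ℂ (CuspForm (Gamma0 N) 2) :=
    FiniteDimensional.of_injective (LinearMap.inl ℂ (CuspForm (Gamma0 N) 2) (CuspForm (Gamma0 N) 2))
      LinearMap.inl_injective
  apply Submodule.eq_of_le_of_finrank_le hle
  rw [LinearMap.finrank_range_of_inj hinj, Module.finrank_prod]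
  have hD := finrank_parabolicHoms_le N
  rw [← h20] at hD
  have hD' : (Module.finrank ℂ (parabolicHoms ℂ (Gamma0 N) ℂ) : ℚ) ≤
      ((Module.finrank ℂ (CuspForm (Gamma0 N) 2) + Module.finrank ℂ (CuspForm (Gamma0 N) 2) : ℕ) : ℚ) := by
    push_cast
    linarith
  exact_mod_cast hD'

end Fermat.Agent.S21
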