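import Fermat.Agent.S21.Primitive

/-!
# S21, module (Q): periods of cusp forms vanish on parabolic elements
-/

set_option autoImplicit false

namespace Fermat.Agent.S21

open UpperHalfPlane CongruenceSubgroup ModularCurve ModularCurve.Period
open scoped MatrixGroups ModularForm Manifold Topology

namespace Parabolic

/-- a trace-2 determinant-1 integer matrix fixes a primitive vector -/
lemma exists_fixed_vector (p q r s : ℤ) (htr : p + s = 2) (hdet : p * s - q * r = 1) :
    ∃ x y : ℤ, IsCoprime x y ∧ p * x + q * y = x ∧ r * x + s * y = y := by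
  have hqr : q * r = -(p - 1) ^ 2 := by
    have hs : s = 2 - p := by linarith
    subst hs
    linear_combination -hdet
  by_cases hr : r = 0
  · subst hr
    have hp : p = 1 := by
      have h0 : (p - 1) ^ 2 = 0 := by linarith [hqr]
      have := pow_eq_zero_iff (two_ne_zero) |>.mp h0
      linarith
    refine ⟨1, 0, isCoprime_one_left, by simp [hp], by simp⟩
  · have hpos : 0 < Int.gcd (p - 1) r := by
      apply Nat.pos_of_ne_zero
      intro h
      rw [Int.gcd_eq_zero_iff] at h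
      exact hr h.2
    obtain ⟨g, x, y, hg, hxy, hx, hy⟩ := Int.exists_gcd_one' hpos
    have hg0 : (g : ℤ) ≠ 0 := by exact_mod_cast hg.ne'
    refine ⟨x, y, Int.isCoprime_iff_gcd_eq_one.mpr hxy, ?_, ?_⟩
    · apply mul_right_cancel₀ hg0
      have h1 : p * (p - 1) + q * r = p - 1 := by rw [hqr]; ring
      calc (p * x + q * y) * (g : ℤ) = p * (x * g) + q * (y * g) := by ring
        _ = p * (p - 1) + q * r := by rw [← hx, ← hy]
        _ = p - 1 := h1
        _ = x * g := hx
    · apply mul_right_cancel₀ hg0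
      have h1 : r * (p - 1) + s * r = r := by linear_combination r * htr
      calc (r * x + s * y) * (g : ℤ) = r * (x * g) + s * (y * g) := by ring
        _ = r * (p - 1) + s * r := by rw [← hx, ← hy]
        _ = r := h1
        _ = y * g := hy

/-- a trace-2 element of `SL(2,ℤ)` is conjugate to a power of `T` -/
lemma exists_conj_of_trace_two (γ : SL(2, ℤ))
    (h : ((γ : SL(2, ℤ)) : Matrix (Fin 2) (Fin 2) ℤ).trace = 2) :
    ∃ (δ : SL(2, ℤ)) (m : ℤ), γ = δ * ModularGroup.T ^ m * δ⁻¹ := by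
  have htr : γ 0 0 + γ 1 1 = 2 := by
    rw [Matrix.trace_fin_two] at h
    exact h
  have hdet : γ 0 0 * γ 1 1 - γ 0 1 * γ 1 0 = 1 := by
    have := γ.det_coe
    rw [Matrix.det_fin_two] at this
    exact this
  obtain ⟨x, y, hcop, h1, h2⟩ := exists_fixed_vector _ _ _ _ htr hdet
  obtain ⟨u, w, huw⟩ := hcop
  -- `u * x + w * y = 1`; δ = [x, -w; y, u]
  let δ : SL(2, ℤ) := ⟨!![x, -w; y, u], by rw [Matrix.det_fin_two_of]; linarith⟩
  let m : ℤ := u * (γ 0 0 * (-w) + γ 0 1 * u) + w * (γ 1 0 * (-w) + γ 1 1 * u)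
  refine ⟨δ, m, ?_⟩
  have key : γ * δ = δ * ModularGroup.T ^ m := by
    apply Matrix.SpecialLinearGroup.ext
    intro i j
    simp only [Matrix.SpecialLinearGroup.coe_mul, ModularGroup.coe_T_zpow, Matrix.mul_apply,
      Fin.sum_univ_two]
    fin_cases i <;> fin_cases j
    · simp [δ]; linarith
    · simp [δ, m]
      linear_combination (-w) * (w * (y * htr - h2) + u * (x * htr - h1) + huw)
        - (-(γ 0 0 * w) + γ 0 1 * u) * huw
    · simp [δ]; linarith
    · simp [δ, m]
      linear_combination u * (w * (y * htr - h2) + u * (x * htr - h1) + huw)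
        - (-(γ 1 0 * w) + γ 1 1 * u) * huw
  rw [← key, mul_inv_cancel_right]

end Parabolic

/-- (Q0) an element of `SL(2,ℤ)` with `trace ^ 2 = 4` is `± δ T^m δ⁻¹`. -/
theorem exists_conj_T_zpow (γ : SL(2, ℤ))
    (h : ((γ : SL(2, ℤ)) : Matrix (Fin 2) (Fin 2) ℤ).trace ^ 2 = 4) :
    ∃ (δ : SL(2, ℤ)) (m : ℤ), γ = δ * ModularGroup.T ^ m * δ⁻¹ ∨
      γ = -(δ * ModularGroup.T ^ m * δ⁻¹) := by
  have h2 : (γ : Matrix (Fin 2) (Fin 2) ℤ).trace = 2 ∨
      (γ : Matrix (Fin 2) (Fin 2) ℤ).trace = -2 := by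
    have h0 : ((γ : Matrix (Fin 2) (Fin 2) ℤ).trace - 2) *
        ((γ : Matrix (Fin 2) (Fin 2) ℤ).trace + 2) = 0 := by linear_combination h
    rcases mul_eq_zero.mp h0 with h | h
    · left; linarith
    · right; linarith
  rcases h2 with h2 | h2
  · obtain ⟨δ, m, hδ⟩ := Parabolic.exists_conj_of_trace_two γ h2
    exact ⟨δ, m, Or.inl hδ⟩
  · have h3 : ((-γ : SL(2, ℤ)) : Matrix (Fin 2) (Fin 2) ℤ).trace = 2 := by
      rw [Matrix.SpecialLinearGroup.coe_neg, Matrix.trace_neg, h2]; norm_num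
    obtain ⟨δ, m, hδ⟩ := Parabolic.exists_conj_of_trace_two (-γ) h3
    exact ⟨δ, m, Or.inr (by rw [← hδ, neg_neg])⟩

/-- (Q1) the period map takes values in parabolic homomorphisms. -/
theorem periodMap_mem_parabolicHoms (N : ℕ) [NeZero N] (f : CuspForm (Gamma0 N) 2) :
    periodMap N f ∈ parabolicHoms ℂ (Gamma0 N) ℂ := by
  rw [mem_parabolicHoms_iff]
  intro γ hγ
  obtain ⟨F, hF⟩ := exists_hasEquivariantPrimitive N f
  obtain ⟨δ, m, hδ⟩ := exists_conj_T_zpow (γ : SL(2, ℤ)) hγ
  obtain ⟨L, hL⟩ := hF.2.2.2 δ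
  have hsm : ∀ w : ℍ, (γ : SL(2, ℤ)) • (δ • w) = δ • (ModularGroup.T ^ m • w) := by
    intro w
    rcases hδ with hδ | hδ
    · rw [hδ, ← mul_smul, ← mul_smul]
      congr 1
      group
    · rw [hδ, ModularGroup.SL_neg_smul, ← mul_smul, ← mul_smul]
      congr 1
      group
  have hconst : ∀ w : ℍ, periodMap N f (Additive.ofMul γ) =
      F (δ • (ModularGroup.T ^ m • w)) - F (δ • w) := by
    intro w
    rw [periodMap_apply hF γ (δ • w), hsm]
  have hT : Filter.Tendsto (fun w : ℍ => ModularGroup.T ^ m • w) atImInfty atImInfty := by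
    rw [atImInfty, Filter.tendsto_comap_iff]
    have him : (UpperHalfPlane.im ∘ fun w : ℍ => ModularGroup.T ^ m • w) = UpperHalfPlane.im := by
      funext w
      exact ModularGroup.im_T_zpow_smul w m
    rw [him]
    exact Filter.tendsto_comap
  have h1 : Filter.Tendsto (fun w : ℍ => F (δ • (ModularGroup.T ^ m • w)) - F (δ • w))
      atImInfty (𝓝 (L - L)) := (hL.comp hT).sub hL
  have h2 : Filter.Tendsto (fun _ : ℍ => periodMap N f (Additive.ofMul γ)) atImInfty
      (𝓝 (L - L)) := h1.congr (fun w => (hconst w).symm)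
  have h3 := tendsto_nhds_unique h2 tendsto_const_nhds
  simpa using h3.symm

/-- (Q2) -/
theorem range_periodHomPair_le (N : ℕ) [NeZero N] :
    LinearMap.range (periodHomPair N) ≤ parabolicHoms ℂ (Gamma0 N) ℂ := by
  obtain ⟨pml, hpml, hdef⟩ := periodHomPair_def N (existsPeriodMapLinear N)
  rintro _ ⟨⟨f, g⟩, rfl⟩
  rw [hdef]
  have hf := periodMap_mem_parabolicHoms N f
  have hg := periodMap_mem_parabolicHoms N g
  rw [← hpml f] at hf
  rw [← hpml g] at hg
  simp only [LinearMap.coprod_apply, LinearMap.comp_apply, LinearMap.add_apply,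
    LinearMap.sub_apply, LinearMap.id_apply]
  exact Submodule.add_mem _
    (Submodule.add_mem _ hf (charInvolution_mem_parabolicHoms N ℂ ℂ hf))
    (Submodule.sub_mem _ hg (charInvolution_mem_parabolicHoms N ℂ ℂ hg))

end Fermat.Agent.S21
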